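import Fermat.Agent.S51.Line
import Mathlib.FieldTheory.IsSepClosed
import Mathlib.Algebra.Algebra.Rat

set_option autoImplicit false
set_option linter.unusedSectionVars false
set_option linter.style.haveILetI false

/-!
# S51 helper: assembly of the argument, with the independent inputs as hypotheses
-/

namespace Fermat.Agent.S51

open WeierstrassCurve WeierstrassCurve.Affine WeierstrassCurve.Affine.Point

variable {K : Type*} [Field K] [Algebra ℚ K] [DecidableEq K] {E : Affine ℚ}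

/-- From a proper nonzero Galois-stable submodule of `E[3]` get a point `Q` of order 3 with
`σ Q = ± Q`. -/
lemma exists_stable_three (hcard : Finite (Tors E K 3) ∧ Nat.card (Tors E K 3) < 3 ^ 3)
    (N : Submodule (ZMod 3) (Tors E K 3)) (hN : IsGaloisStable ℚ N) (h0 : N ≠ ⊥) (h1 : N ≠ ⊤) :
    ∃ Q : (E⁄K).Point, Q ≠ 0 ∧ 3 • Q = 0 ∧ ∀ σ : K ≃ₐ[ℚ] K, σ • Q = Q ∨ σ • Q = -Q := by
  haveI : Fact (Nat.Prime 3) := ⟨Nat.prime_three⟩
  haveI := hcard.1
  obtain ⟨v, hvN, hv0, hv⟩ := exists_generator_of_card_lt hcard.2 N h0 h1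
  have h3 : 3 • (v : (E⁄K).Point) = 0 := (mem_tors_iff _).mp v.2
  have hv0' : (v : (E⁄K).Point) ≠ 0 := fun h => hv0 (Subtype.ext h)
  refine ⟨v, hv0', h3, fun σ => ?_⟩
  obtain ⟨c, hc⟩ := hv (σ • v) (hN σ v hvN)
  have hc' : σ • (v : (E⁄K).Point) = c.val • (v : (E⁄K).Point) := by
    rw [← coe_smul_tors, hc, ← coe_zmod_smul_tors, ZMod.natCast_zmod_val]
  have e3 : (v : (E⁄K).Point) + v + v = 0 := by rw [← h3]; abel
  have hk : c.val < 3 := ZMod.val_lt c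
  generalize c.val = k at hc' hk
  have hne : σ • (v : (E⁄K).Point) ≠ 0 := fun h => hv0' ((smul_eq_zero_iff' σ _).mp h)
  rw [hc'] at hne ⊢
  interval_cases k
  · exact absurd (zero_smul ℕ _) hne
  · left; exact one_smul ℕ _
  · right
    linear_combination (norm := abel) e3

/-- From a proper nonzero Galois-stable submodule of `E[5]` get a point `P` of order 5 with
`σ P ∈ {±P, ±2P}`. -/
lemma exists_stable_five (hcard : Finite (Tors E K 5) ∧ Nat.card (Tors E K 5) < 5 ^ 3)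
    (N : Submodule (ZMod 5) (Tors E K 5)) (hN : IsGaloisStable ℚ N) (h0 : N ≠ ⊥) (h1 : N ≠ ⊤) :
    ∃ P : (E⁄K).Point, P ≠ 0 ∧ 5 • P = 0 ∧
      ∀ σ : K ≃ₐ[ℚ] K, σ • P = P ∨ σ • P = -P ∨ σ • P = P + P ∨ σ • P = -(P + P) := by
  haveI : Fact (Nat.Prime 5) := ⟨Nat.prime_five⟩
  haveI := hcard.1
  obtain ⟨v, hvN, hv0, hv⟩ := exists_generator_of_card_lt hcard.2 N h0 h1
  have h5 : 5 • (v : (E⁄K).Point) = 0 := (mem_tors_iff _).mp v.2
  have hv0' : (v : (E⁄K).Point) ≠ 0 := fun h => hv0 (Subtype.ext h)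
  refine ⟨v, hv0', h5, fun σ => ?_⟩
  obtain ⟨c, hc⟩ := hv (σ • v) (hN σ v hvN)
  have hc' : σ • (v : (E⁄K).Point) = c.val • (v : (E⁄K).Point) := by
    rw [← coe_smul_tors, hc, ← coe_zmod_smul_tors, ZMod.natCast_zmod_val]
  have e5 : (v : (E⁄K).Point) + v + v + v + v = 0 := by rw [← h5]; abel
  have hk : c.val < 5 := ZMod.val_lt c
  generalize c.val = k at hc' hk
  have hne : σ • (v : (E⁄K).Point) ≠ 0 := fun h => hv0' ((smul_eq_zero_iff' σ _).mp h)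
  rw [hc'] at hne ⊢
  interval_cases k
  · exact absurd (zero_smul ℕ _) hne
  · left; exact one_smul ℕ _
  · right; right; left
    abel
  · right; right; right
    linear_combination (norm := abel) e5
  · right; left
    linear_combination (norm := abel) e5

theorem isGalois_rat_algClosure : IsGalois ℚ (AlgebraicClosure ℚ) := by
  have h : (DivisionRing.toRatAlgebra : Algebra ℚ (AlgebraicClosure ℚ)) =
      AlgebraicClosure.instAlgebra ℚ := Subsingleton.elim _ _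
  rw [h]
  infer_instance

/-- Assembly of S51 from its independent inputs. -/
theorem core (W : WeierstrassCurve ℤ) (hΔ : W.Δ ≠ 0)
    (hT3 : ∃ Q : ((W.map (Int.castRingHom ℚ))⁄(AlgebraicClosure ℚ)).Point, Q ≠ 0 ∧ 3 • Q = 0)
    (hT5 : ∃ P : ((W.map (Int.castRingHom ℚ))⁄(AlgebraicClosure ℚ)).Point, P ≠ 0 ∧ 5 • P = 0)
    (hC3 : Finite (Tors (W.map (Int.castRingHom ℚ)) (AlgebraicClosure ℚ) 3) ∧
      Nat.card (Tors (W.map (Int.castRingHom ℚ)) (AlgebraicClosure ℚ) 3) < 3 ^ 3)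
    (hC5 : Finite (Tors (W.map (Int.castRingHom ℚ)) (AlgebraicClosure ℚ) 5) ∧
      Nat.card (Tors (W.map (Int.castRingHom ℚ)) (AlgebraicClosure ℚ) 5) < 5 ^ 3)
    (hdesc : ∀ X Y : ℚ, Y ^ 2 = X * (X - 9) * (X - 25) →
      X = 0 ∨ X = 5 ∨ X = 9 ∨ X = 25 ∨ X = 45)
    (hend : ∀ s : ℚ, (s = -10 ∨ s = -40 ∨ s = -25 / 2 ∨ s = -25 / 8) →
      (W.c₄ : ℚ) ^ 3 * s = (W.Δ : ℚ) * (s ^ 2 + 10 * s + 5) ^ 3 → False) :
    W.ModRepIsIrreducible 3 ∨ W.ModRepIsIrreducible 5 := by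
  haveI := isGalois_rat_algClosure
  by_contra hcon
  rw [not_or] at hcon
  obtain ⟨h3, h5⟩ := hcon
  unfold WeierstrassCurve.ModRepIsIrreducible GaloisRepIsIrreducible at h3 h5
  -- nontriviality
  have hnt3 : Nontrivial (Tors (W.map (Int.castRingHom ℚ)) (AlgebraicClosure ℚ) 3) := by
    obtain ⟨Q, hQ, hQ3⟩ := hT3
    exact ⟨⟨⟨Q, (mem_tors_iff Q).mpr hQ3⟩, 0, fun h => hQ (congrArg Subtype.val h)⟩⟩
  have hnt5 : Nontrivial (Tors (W.map (Int.castRingHom ℚ)) (AlgebraicClosure ℚ) 5) := by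
    obtain ⟨P, hP, hP5⟩ := hT5
    exact ⟨⟨⟨P, (mem_tors_iff P).mpr hP5⟩, 0, fun h => hP (congrArg Subtype.val h)⟩⟩
  rw [not_and] at h3 h5
  have h3' := h3 hnt3
  have h5' := h5 hnt5
  push Not at h3' h5'
  obtain ⟨N3, hN3, hN30, hN31⟩ := h3'
  obtain ⟨N5, hN5, hN50, hN51⟩ := h5'
  obtain ⟨Q, hQ, hQ3, hσQ⟩ := exists_stable_three hC3 N3 hN3 hN30 hN31
  obtain ⟨P, hP, hP5, hσP⟩ := exists_stable_five hC5 N5 hN5 hN50 hN51
  have hΔ' : (W.map (Int.castRingHom ℚ)).Δ ≠ 0 := by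
    rw [WeierstrassCurve.map_Δ]
    simpa using hΔ
  obtain ⟨s, hs, hrel⟩ := exists_s_of_config hP hP5 hQ hQ3 hσQ hσP hΔ' hdesc
  apply hend s hs
  rw [WeierstrassCurve.map_Δ, WeierstrassCurve.map_c₄] at hrel
  simpa using hrel

end Fermat.Agent.S51
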