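import Fermat.Agent.S51.Dup
import Mathlib.Tactic.Abel
import Mathlib.Tactic.Module

set_option autoImplicit false
set_option linter.unusedSectionVars false

/-!
# S51 helper: `x`-coordinate relations for points of order 3 and 5
-/

namespace Fermat.Agent.S51

open WeierstrassCurve WeierstrassCurve.Affine

variable {K : Type*} [Field K] [DecidableEq K] {W : Affine K}

/-- The relations satisfied by `x₁ = x(P)`, `x₂ = x(2P)` for a point of order 5. -/
structure FiveRel (W : Affine K) (x₁ x₂ : K) : Prop where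
  ne : x₁ ≠ x₂
  p1 : psi2sq W x₁ ≠ 0
  p2 : psi2sq W x₂ ≠ 0
  h1 : (x₂ - x₁) * psi2sq W x₁ = - psi3 W x₁
  h2 : (x₁ - x₂) * psi2sq W x₂ = - psi3 W x₂

lemma FiveRel.symm {x₁ x₂ : K} (h : FiveRel W x₁ x₂) : FiveRel W x₂ x₁ :=
  ⟨h.ne.symm, h.p2, h.p1, h.h2, h.h1⟩

lemma fiveRel_of_five_nsmul {P : W.Point} (hP : P ≠ 0) (h5 : 5 • P = 0) :
    FiveRel W (xOf P) (xOf (P + P)) := by
  have e5 : P + P + P + P + P = 0 := by rw [← h5]; abel
  have h2 : P + P ≠ 0 := by
    intro h
    apply hP
    linear_combination (norm := abel) e5 - (2 : ℤ) • h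
  have h4 : (P + P) + (P + P) = -P := by
    linear_combination (norm := abel) e5
  have h4' : (P + P) + (P + P) ≠ 0 := by
    rw [h4]; exact neg_ne_zero.mpr hP
  have hne : xOf P ≠ xOf (P + P) := by
    intro hx
    rcases eq_or_eq_neg_of_xOf_eq hP h2 hx with h | h
    · apply hP
      linear_combination (norm := abel) (-1 : ℤ) • h
    · apply hP
      linear_combination (norm := abel) (2 : ℤ) • h - e5
  refine ⟨hne, ?_, ?_, xOf_add_self hP h2, ?_⟩
  · exact fun h => h2 ((psi2sq_xOf_eq_zero_iff hP).mp h)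
  · exact fun h => h4' ((psi2sq_xOf_eq_zero_iff h2).mp h)
  · have := xOf_add_self h2 h4'
    rwa [h4, xOf_neg] at this

lemma five_nsmul_of_fiveRel {P : W.Point} (hP : P ≠ 0) {x₂ : K}
    (h : FiveRel W (xOf P) x₂) : 5 • P = 0 := by
  have h2 : P + P ≠ 0 := fun h0 => h.p1 ((psi2sq_xOf_eq_zero_iff hP).mpr h0)
  have hx2 : xOf (P + P) = x₂ := by
    have := xOf_add_self hP h2
    rw [← h.h1] at this
    have := mul_right_cancel₀ h.p1 this
    linear_combination this
  have h4 : (P + P) + (P + P) ≠ 0 := by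
    intro h0
    apply h.p2
    rw [← hx2]
    exact (psi2sq_xOf_eq_zero_iff h2).mpr h0
  have hx4 : xOf ((P + P) + (P + P)) = xOf P := by
    have := xOf_add_self h2 h4
    rw [hx2, ← h.h2] at this
    have := mul_right_cancel₀ h.p2 this
    linear_combination this
  rcases eq_or_eq_neg_of_xOf_eq h4 hP hx4 with h' | h'
  · -- 4P = P, so 3P = 0, so 2P = -P, contradiction with x₁ ≠ x₂
    exfalso
    have : P + P = -P := by
      linear_combination (norm := abel) h'
    apply h.ne
    rw [← hx2, this, xOf_neg]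
  · linear_combination (norm := abel) h'

/-- The relation satisfied by `x(Q)` for a point of order 3, as an iff. -/
lemma three_nsmul_iff {Q : W.Point} (hQ : Q ≠ 0) : 3 • Q = 0 ↔ psi3 W (xOf Q) = 0 := by
  have e : 3 • Q = Q + Q + Q := by abel
  rw [e]
  exact ⟨psi3_xOf_eq_zero_of_three_nsmul hQ, three_nsmul_of_psi3_xOf_eq_zero hQ⟩

end Fermat.Agent.S51
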