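/-
S51-C: the 3-torsion and 5-torsion of an elliptic curve over a field of characteristic zero
are finite, with at most 9 resp. 33 points (any bound below 27 resp. 125 suffices).
-/
import Mathlib
import Fermat.Agent.S51.Torsion

set_option autoImplicit false
set_option linter.unusedSectionVars false
set_option linter.unusedVariables false

namespace Fermat.Agent.S51

open Polynomial WeierstrassCurve WeierstrassCurve.Affine

section general

variable {K : Type*} [Field K] [DecidableEq K]

/-- Counting lemma: a set of points whose nonzero members have `x`-coordinate a root of a fixed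
nonzero polynomial `p` is finite of cardinality at most `1 + 2 deg p`. -/
theorem card_of_xOf_isRoot (W : Affine K) (T : Set W.Point) (p : K[X]) (hp : p ≠ 0)
    (hT : ∀ P ∈ T, P ≠ 0 → p.IsRoot (xOf P)) :
    T.Finite ∧ T.ncard ≤ 1 + 2 * p.natDegree := by
  classical
  let R : Finset K := p.roots.toFinset
  have hR : R.card ≤ p.natDegree :=
    (Multiset.toFinset_card_le _).trans (Polynomial.card_roots' p)
  let f : K → W.Point := fun x =>
    if h : ∃ P : W.Point, P ≠ 0 ∧ xOf P = x then h.choose else 0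
  let S : Finset W.Point := insert 0 (R.image f ∪ R.image (fun x => -f x))
  have hsub : T ⊆ (S : Set W.Point) := by
    intro P hP
    by_cases h0 : P = 0
    · simp [S, h0]
    have hroot := hT P hP h0
    have hxR : xOf P ∈ R := by
      simp only [R, Multiset.mem_toFinset]
      exact (Polynomial.mem_roots hp).mpr hroot
    have hex : ∃ Q : W.Point, Q ≠ 0 ∧ xOf Q = xOf P := ⟨P, h0, rfl⟩
    have hf : f (xOf P) = hex.choose := by simp only [f, dif_pos hex]
    have hspec := hex.choose_spec
    rcases eq_or_eq_neg_of_xOf_eq h0 hspec.1 hspec.2.symm with h | h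
    · have : P ∈ R.image f := Finset.mem_image.mpr ⟨xOf P, hxR, by rw [hf]; exact h.symm⟩
      simp only [S, Finset.coe_insert, Finset.coe_union, Set.mem_insert_iff, Set.mem_union,
        Finset.mem_coe]
      exact Or.inr (Or.inl this)
    · have : P ∈ R.image (fun x => -f x) :=
        Finset.mem_image.mpr ⟨xOf P, hxR, by rw [hf]; exact h.symm⟩
      simp only [S, Finset.coe_insert, Finset.coe_union, Set.mem_insert_iff, Set.mem_union,
        Finset.mem_coe]
      exact Or.inr (Or.inr this)
  have hScard : S.card ≤ 1 + 2 * p.natDegree := by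
    calc S.card ≤ (R.image f ∪ R.image (fun x => -f x)).card + 1 := Finset.card_insert_le _ _
      _ ≤ ((R.image f).card + (R.image (fun x => -f x)).card) + 1 :=
          Nat.add_le_add_right (Finset.card_union_le _ _) 1
      _ ≤ (R.card + R.card) + 1 :=
          Nat.add_le_add_right (Nat.add_le_add Finset.card_image_le Finset.card_image_le) 1
      _ ≤ 1 + 2 * p.natDegree := by omega
  refine ⟨S.finite_toSet.subset hsub, ?_⟩
  calc T.ncard ≤ (S : Set W.Point).ncard := Set.ncard_le_ncard hsub S.finite_toSet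
    _ = S.card := Set.ncard_coe_finset S
    _ ≤ 1 + 2 * p.natDegree := hScard

end general

section polys

variable {K : Type*} [Field K] [CharZero K]

/-- `ψ₂²` as a polynomial. -/
noncomputable def cardPA (W : Affine K) : K[X] :=
  4 * X ^ 3 + C W.b₂ * X ^ 2 + C (2 * W.b₄) * X + C W.b₆

/-- `ψ₃` as a polynomial. -/
noncomputable def cardPB (W : Affine K) : K[X] :=
  3 * X ^ 4 + C W.b₂ * X ^ 3 + C (3 * W.b₄) * X ^ 2 + C (3 * W.b₆) * X + C W.b₈

/-- The numerator of the duplication map. -/
noncomputable def cardPN (W : Affine K) : K[X] :=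
  X ^ 4 - C W.b₄ * X ^ 2 - C (2 * W.b₆) * X - C W.b₈

/-- The polynomial of degree 16 vanishing at the `x`-coordinates of points of order 5. -/
noncomputable def cardPG (W : Affine K) : K[X] :=
  cardPB W * (4 * cardPN W ^ 3 + C W.b₂ * cardPN W ^ 2 * cardPA W
      + C (2 * W.b₄) * cardPN W * cardPA W ^ 2 + C W.b₆ * cardPA W ^ 3)
    + (3 * cardPN W ^ 4 + C W.b₂ * cardPN W ^ 3 * cardPA W
      + C (3 * W.b₄) * cardPN W ^ 2 * cardPA W ^ 2
      + C (3 * W.b₆) * cardPN W * cardPA W ^ 3 + C W.b₈ * cardPA W ^ 4)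

theorem cardPB_natDegree (W : Affine K) : (cardPB W).natDegree = 4 := by
  unfold cardPB
  compute_degree!

theorem cardPG_natDegree (W : Affine K) : (cardPG W).natDegree = 16 := by
  unfold cardPG cardPB cardPN cardPA
  compute_degree!

theorem cardPB_ne_zero (W : Affine K) : cardPB W ≠ 0 := by
  intro h
  have := cardPB_natDegree W
  rw [h] at this
  simp at this

theorem cardPG_ne_zero (W : Affine K) : cardPG W ≠ 0 := by
  intro h
  have := cardPG_natDegree W
  rw [h] at this
  simp at this

theorem cardPA_eval (W : Affine K) (x : K) : (cardPA W).eval x = psi2sq W x := by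
  simp only [cardPA, psi2sq, eval_add, eval_mul, eval_pow, eval_X, eval_C, eval_ofNat]

theorem cardPB_eval (W : Affine K) (x : K) : (cardPB W).eval x = psi3 W x := by
  simp only [cardPB, psi3, eval_add, eval_mul, eval_pow, eval_X, eval_C, eval_ofNat]

theorem cardPN_eval (W : Affine K) (x : K) :
    (cardPN W).eval x = x * psi2sq W x - psi3 W x := by
  simp only [cardPN, psi2sq, psi3, eval_sub, eval_mul, eval_pow, eval_X, eval_C]
  ring

theorem cardPG_eval_of_fiveRel (W : Affine K) {x₁ x₂ : K} (h : FiveRel W x₁ x₂) :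
    (cardPG W).eval x₁ = 0 := by
  have hN : (cardPN W).eval x₁ = x₂ * psi2sq W x₁ := by
    rw [cardPN_eval]; linear_combination -h.h1
  have h2 := h.h2
  have h1 := h.h1
  have e : (cardPG W).eval x₁ =
      (cardPB W).eval x₁ * (4 * (cardPN W).eval x₁ ^ 3
        + W.b₂ * (cardPN W).eval x₁ ^ 2 * (cardPA W).eval x₁
        + (2 * W.b₄) * (cardPN W).eval x₁ * (cardPA W).eval x₁ ^ 2
        + W.b₆ * (cardPA W).eval x₁ ^ 3)
      + (3 * (cardPN W).eval x₁ ^ 4 + W.b₂ * (cardPN W).eval x₁ ^ 3 * (cardPA W).eval x₁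
        + (3 * W.b₄) * (cardPN W).eval x₁ ^ 2 * (cardPA W).eval x₁ ^ 2
        + (3 * W.b₆) * (cardPN W).eval x₁ * (cardPA W).eval x₁ ^ 3
        + W.b₈ * (cardPA W).eval x₁ ^ 4) := by
    unfold cardPG
    simp only [eval_add, eval_mul, eval_pow, eval_C, eval_ofNat]
  rw [e, hN, cardPA_eval, cardPB_eval]
  generalize psi2sq W x₁ = A₁ at *
  generalize psi3 W x₁ = B₁ at *
  simp only [psi2sq, psi3] at h2
  linear_combination (A₁ ^ 3 * (4 * x₂ ^ 3 + W.b₂ * x₂ ^ 2 + 2 * W.b₄ * x₂ + W.b₆)) * h1
    + (A₁ ^ 4) * h2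

end polys

section main

variable {K : Type*} [Field K] [DecidableEq K] [CharZero K] (W : WeierstrassCurve.Affine K)

theorem three_torsion_finite :
    {Q : W.Point | 3 • Q = 0}.Finite ∧ {Q : W.Point | 3 • Q = 0}.ncard ≤ 9 := by
  have h := card_of_xOf_isRoot W {Q : W.Point | 3 • Q = 0} (cardPB W) (cardPB_ne_zero W)
    (fun P hP h0 => by
      have h3 : psi3 W (xOf P) = 0 := (three_nsmul_iff h0).mp hP
      rw [IsRoot, cardPB_eval]; exact h3)
  rw [cardPB_natDegree] at h
  exact ⟨h.1, h.2⟩

theorem five_torsion_finite :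
    {P : W.Point | 5 • P = 0}.Finite ∧ {P : W.Point | 5 • P = 0}.ncard ≤ 33 := by
  have h := card_of_xOf_isRoot W {P : W.Point | 5 • P = 0} (cardPG W) (cardPG_ne_zero W)
    (fun P hP h0 => cardPG_eval_of_fiveRel W (fiveRel_of_five_nsmul h0 hP))
  rw [cardPG_natDegree] at h
  exact ⟨h.1, h.2⟩

theorem card_torsionBy_coe (n : ℕ) :
    ((Submodule.torsionBy ℤ W.Point (n : ℤ) : Submodule ℤ W.Point) : Set W.Point)
      = {Q : W.Point | n • Q = 0} := by
  ext Q
  simp only [SetLike.mem_coe, Submodule.mem_torsionBy_iff, Nat.cast_smul_eq_nsmul,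
    Set.mem_ofPred_eq]

/-- The 3-torsion, in the form needed by the assembly. -/
theorem card_three_torsionBy :
    Finite (Submodule.torsionBy ℤ W.Point ((3 : ℕ) : ℤ)) ∧
      Nat.card (Submodule.torsionBy ℤ W.Point ((3 : ℕ) : ℤ)) < 3 ^ 3 := by
  have h := three_torsion_finite W
  have e := card_torsionBy_coe W 3
  have hfin : ((Submodule.torsionBy ℤ W.Point ((3 : ℕ) : ℤ) : Submodule ℤ W.Point) :
      Set W.Point).Finite := by rw [e]; exact h.1
  refine ⟨hfin.to_subtype, ?_⟩
  have hc : Nat.card (Submodule.torsionBy ℤ W.Point ((3 : ℕ) : ℤ))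
      = {Q : W.Point | 3 • Q = 0}.ncard := by
    rw [← e]; rfl
  rw [hc]
  have := h.2
  omega

/-- The 5-torsion, in the form needed by the assembly. -/
theorem card_five_torsionBy :
    Finite (Submodule.torsionBy ℤ W.Point ((5 : ℕ) : ℤ)) ∧
      Nat.card (Submodule.torsionBy ℤ W.Point ((5 : ℕ) : ℤ)) < 5 ^ 3 := by
  have h := five_torsion_finite W
  have e := card_torsionBy_coe W 5
  have hfin : ((Submodule.torsionBy ℤ W.Point ((5 : ℕ) : ℤ) : Submodule ℤ W.Point) :
      Set W.Point).Finite := by rw [e]; exact h.1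
  refine ⟨hfin.to_subtype, ?_⟩
  have hc : Nat.card (Submodule.torsionBy ℤ W.Point ((5 : ℕ) : ℤ))
      = {Q : W.Point | 5 • Q = 0}.ncard := by
    rw [← e]; rfl
  rw [hc]
  have := h.2
  omega

end main

end Fermat.Agent.S51
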