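/-
Rational points on the elliptic curves 15a2 : y² = x (x - 1) (x - 81) and
15a1 : Y² = X (X - 9) (X - 25), by an elementary Fermat-style descent.
Used for S51 (a semistable curve cannot have both a rational 3-isogeny and a rational 5-isogeny).
-/
import Mathlib

set_option linter.unusedTactic false
set_option linter.unusedVariables false

namespace Fermat.Agent.S51

/-- No small solutions of the descent equation. -/
theorem descent_no_small (M e : ℕ) (hM0 : 0 < M) (he0 : 0 < e) (hM : M < 18) (he : e < 18)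
    (N : ℤ) (hN : N ≠ 0)
    (h : ((M:ℤ)^2 - (e:ℤ)^2) * ((M:ℤ)^2 - 81 * (e:ℤ)^2) = N^2) : False := by
  have hsq : IsSquare (((M:ℤ)^2 - (e:ℤ)^2) * ((M:ℤ)^2 - 81 * (e:ℤ)^2)) := ⟨N, by rw [h]; ring⟩
  have hpos : 0 < ((M:ℤ)^2 - (e:ℤ)^2) * ((M:ℤ)^2 - 81 * (e:ℤ)^2) := by rw [h]; positivity
  clear h
  interval_cases M <;> interval_cases e <;>
    first
    | (norm_num at hpos; done)
    | (norm_num at hsq; done)

/-- If `A * B = N^2` with `N ≠ 0` then `A = ± g a²`, `B = ± g b²` (same sign) where `g = gcd A B`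
and `a`, `b` are coprime positive naturals. -/
theorem sq_prod_decomp (A B N : ℤ) (hN : N ≠ 0) (h : A * B = N ^ 2) :
    ∃ (a b : ℕ), 0 < a ∧ 0 < b ∧ Nat.Coprime a b ∧
      ((A = (Int.gcd A B : ℤ) * (a : ℤ) ^ 2 ∧ B = (Int.gcd A B : ℤ) * (b : ℤ) ^ 2) ∨
       (A = -((Int.gcd A B : ℤ) * (a : ℤ) ^ 2) ∧ B = -((Int.gcd A B : ℤ) * (b : ℤ) ^ 2))) := by
  have hAB : A * B ≠ 0 := by rw [h]; exact pow_ne_zero 2 hN
  have hA : A ≠ 0 := left_ne_zero_of_mul hAB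
  have hB : B ≠ 0 := right_ne_zero_of_mul hAB
  have hgpos : 0 < Int.gcd A B := Int.gcd_pos_iff.mpr (Or.inl hA)
  obtain ⟨A', B', hcop, hA', hB'⟩ := Int.exists_gcd_one hgpos
  set g : ℕ := Int.gcd A B with hg
  have hg0 : (g : ℤ) ≠ 0 := by exact_mod_cast hgpos.ne'
  have hdvd : (g : ℤ) ∣ N := by
    have : (g : ℤ) ^ 2 ∣ N ^ 2 := by
      rw [← h, hA', hB']
      exact ⟨A' * B', by ring⟩
    exact (Int.pow_dvd_pow_iff two_ne_zero).mp this
  obtain ⟨N', hN'⟩ := hdvd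
  have h' : A' * B' = N' ^ 2 := by
    have h1 : (g : ℤ) ^ 2 * (A' * B') = (g : ℤ) ^ 2 * N' ^ 2 := by
      have : A * B = (g : ℤ) ^ 2 * (A' * B') := by rw [hA', hB']; ring
      rw [← this, h, hN']; ring
    exact mul_left_cancel₀ (pow_ne_zero 2 hg0) h1
  have hN'0 : N' ≠ 0 := by
    rintro rfl
    apply hN; rw [hN']; ring
  have hA'0 : A' ≠ 0 := by
    rintro rfl
    apply hA; rw [hA']; ring
  have hB'0 : B' ≠ 0 := by
    rintro rfl
    apply hB; rw [hB']; ring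
  obtain ⟨a0, ha0⟩ := Int.sq_of_gcd_eq_one hcop h'
  have hcop' : Int.gcd B' A' = 1 := by rw [Int.gcd_comm]; exact hcop
  have h'' : B' * A' = N' ^ 2 := by rw [mul_comm]; exact h'
  obtain ⟨b0, hb0⟩ := Int.sq_of_gcd_eq_one hcop' h''
  have ha00 : a0 ≠ 0 := by
    rintro rfl
    rcases ha0 with ha0 | ha0 <;> simp at ha0 <;> exact hA'0 ha0
  have hb00 : b0 ≠ 0 := by
    rintro rfl
    rcases hb0 with hb0 | hb0 <;> simp at hb0 <;> exact hB'0 hb0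
  have hasq : ((a0.natAbs : ℕ) : ℤ) ^ 2 = a0 ^ 2 := Int.natAbs_sq a0
  have hbsq : ((b0.natAbs : ℕ) : ℤ) ^ 2 = b0 ^ 2 := Int.natAbs_sq b0
  have hcopab : Nat.Coprime a0.natAbs b0.natAbs := by
    have h1 : Nat.Coprime (A'.natAbs) (B'.natAbs) := hcop
    have e1 : A'.natAbs = a0.natAbs ^ 2 := by
      rcases ha0 with ha0 | ha0 <;> rw [ha0] <;> simp [Int.natAbs_pow]
    have e2 : B'.natAbs = b0.natAbs ^ 2 := by
      rcases hb0 with hb0 | hb0 <;> rw [hb0] <;> simp [Int.natAbs_pow]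
    rw [e1, e2] at h1
    exact (Nat.Coprime.coprime_dvd_left (dvd_pow_self _ two_ne_zero)
      (Nat.Coprime.coprime_dvd_right (dvd_pow_self _ two_ne_zero) h1))
  have hpos : 0 < A' * B' := by rw [h']; positivity
  refine ⟨a0.natAbs, b0.natAbs, Int.natAbs_pos.mpr ha00, Int.natAbs_pos.mpr hb00, hcopab, ?_⟩
  rcases ha0 with ha0 | ha0 <;> rcases hb0 with hb0 | hb0
  · left
    refine ⟨?_, ?_⟩
    · rw [hasq, ← ha0, mul_comm]; exact hA'
    · rw [hbsq, ← hb0, mul_comm]; exact hB'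
  · exfalso
    rw [ha0, hb0] at hpos
    have : 0 < a0 ^ 2 * b0 ^ 2 := by positivity
    nlinarith
  · exfalso
    rw [ha0, hb0] at hpos
    have : 0 < a0 ^ 2 * b0 ^ 2 := by positivity
    nlinarith
  · right
    refine ⟨?_, ?_⟩
    · rw [hasq, hA', ha0]; ring
    · rw [hbsq, hB', hb0]; ring

theorem int_sq_mod_eight (x : ℤ) :
    (x % 2 = 1 ∧ x ^ 2 % 8 = 1) ∨ (x % 2 = 0 ∧ (x ^ 2 % 8 = 0 ∨ x ^ 2 % 8 = 4)) := by
  have h8 : x % 8 = 0 ∨ x % 8 = 1 ∨ x % 8 = 2 ∨ x % 8 = 3 ∨ x % 8 = 4 ∨ x % 8 = 5 ∨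
      x % 8 = 6 ∨ x % 8 = 7 := by omega
  have e8 : x ^ 2 % 8 = (x % 8) * (x % 8) % 8 := by
    rw [pow_two, Int.mul_emod]
  rcases h8 with h | h | h | h | h | h | h | h <;> rw [h] at e8 <;> norm_num at e8 <;> omega

theorem nat_coprime_parity {a b : ℕ} (hab : Nat.Coprime a b) :
    (a : ℤ) % 2 = 1 ∨ (b : ℤ) % 2 = 1 := by
  by_contra hcon
  have h1 : (2:ℤ) ∣ a := by omega
  have h2 : (2:ℤ) ∣ b := by omega
  have h3 : (2:ℕ) ∣ a := by exact_mod_cast h1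
  have h4 : (2:ℕ) ∣ b := by exact_mod_cast h2
  have := Nat.dvd_gcd h3 h4
  rw [hab] at this
  omega

theorem descent_classify (M e : ℕ) (hcop : Nat.Coprime M e)
    (N : ℤ) (hN : N ≠ 0)
    (h : ((M:ℤ)^2 - (e:ℤ)^2) * ((M:ℤ)^2 - 81 * (e:ℤ)^2) = N^2) :
    ∃ k l : ℕ, 0 < k ∧ 0 < l ∧
      (((M:ℤ)^2 - (e:ℤ)^2 = (k:ℤ)^2 ∧ (M:ℤ)^2 - 81 * (e:ℤ)^2 = (l:ℤ)^2) ∨
       ((M:ℤ)^2 - (e:ℤ)^2 = -(k:ℤ)^2 ∧ (M:ℤ)^2 - 81 * (e:ℤ)^2 = -(l:ℤ)^2) ∨
       ((M:ℤ)^2 - (e:ℤ)^2 = 5 * (k:ℤ)^2 ∧ (M:ℤ)^2 - 81 * (e:ℤ)^2 = 5 * (l:ℤ)^2) ∨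
       ((M:ℤ)^2 - (e:ℤ)^2 = -(5 * (k:ℤ)^2) ∧ (M:ℤ)^2 - 81 * (e:ℤ)^2 = -(5 * (l:ℤ)^2))) := by
  obtain ⟨A, hA⟩ : ∃ A : ℤ, A = (M:ℤ)^2 - (e:ℤ)^2 := ⟨_, rfl⟩
  obtain ⟨B, hB⟩ : ∃ B : ℤ, B = (M:ℤ)^2 - 81 * (e:ℤ)^2 := ⟨_, rfl⟩
  rw [← hA, ← hB] at h ⊢
  obtain ⟨a, b, ha, hb, hab, hcases⟩ := sq_prod_decomp A B N hN h
  obtain ⟨g, hg⟩ : ∃ g : ℕ, g = Int.gcd A B := ⟨_, rfl⟩
  rw [← hg] at hcases
  -- g ∣ 80
  have hgA : (g : ℤ) ∣ A := hg ▸ Int.gcd_dvd_left A B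
  have hgB : (g : ℤ) ∣ B := hg ▸ Int.gcd_dvd_right A B
  have hcopZ : IsCoprime ((M:ℤ)^2) ((e:ℤ)^2) := (Nat.Coprime.isCoprime hcop).pow
  have hg80 : g ∣ 80 := by
    obtain ⟨u, v, huv⟩ := hcopZ
    have h1 : (g : ℤ) ∣ u * (81 * A - B) + v * (A - B) :=
      dvd_add (Dvd.dvd.mul_left (dvd_sub (Dvd.dvd.mul_left hgA 81) hgB) u)
        (Dvd.dvd.mul_left (dvd_sub hgA hgB) v)
    have h2 : u * (81 * A - B) + v * (A - B) = ((80 : ℕ) : ℤ) := by
      have : u * (81 * A - B) + v * (A - B) = 80 * (u * (M:ℤ)^2 + v * (e:ℤ)^2) := by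
        rw [hA, hB]; ring
      rw [this, huv]; norm_num
    rw [h2] at h1
    exact Int.natCast_dvd_natCast.mp h1
  have hg_le : g ≤ 80 := Nat.le_of_dvd (by norm_num) hg80
  have hgcases : g = 1 ∨ g = 2 ∨ g = 4 ∨ g = 5 ∨ g = 8 ∨ g = 10 ∨ g = 16 ∨ g = 20 ∨ g = 40 ∨
      g = 80 := by
    clear hg hgA hgB hcases
    interval_cases g <;> first | (exfalso; revert hg80; decide) | simp
  -- parity facts
  have hMe := nat_coprime_parity hcop
  have hab2 := nat_coprime_parity hab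
  have hM8 := int_sq_mod_eight (M:ℤ)
  have he8 := int_sq_mod_eight (e:ℤ)
  have ha8 := int_sq_mod_eight (a:ℤ)
  have hb8 := int_sq_mod_eight (b:ℤ)
  have ha' : 0 < 2 * a := by omega
  have hb' : 0 < 2 * b := by omega
  have ha'' : 0 < 4 * a := by omega
  have hb'' : 0 < 4 * b := by omega
  clear hg hgA hgB hg80 hg_le hcopZ h hcop hab
  rcases hgcases with rfl | rfl | rfl | rfl | rfl | rfl | rfl | rfl | rfl | rfl
  · -- g = 1
    refine ⟨a, b, ha, hb, ?_⟩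
    rcases hcases with ⟨h1, h2⟩ | ⟨h1, h2⟩
    · left; exact ⟨by rw [h1]; push_cast; ring, by rw [h2]; push_cast; ring⟩
    · right; left; exact ⟨by rw [h1]; push_cast; ring, by rw [h2]; push_cast; ring⟩
  · -- g = 2
    exfalso
    rcases hcases with ⟨h1, h2⟩ | ⟨h1, h2⟩ <;> push_cast at h1 h2 <;> omega
  · -- g = 4
    refine ⟨2 * a, 2 * b, ha', hb', ?_⟩
    rcases hcases with ⟨h1, h2⟩ | ⟨h1, h2⟩
    · left; exact ⟨by rw [h1]; push_cast; ring, by rw [h2]; push_cast; ring⟩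
    · right; left; exact ⟨by rw [h1]; push_cast; ring, by rw [h2]; push_cast; ring⟩
  · -- g = 5
    refine ⟨a, b, ha, hb, ?_⟩
    rcases hcases with ⟨h1, h2⟩ | ⟨h1, h2⟩
    · right; right; left; exact ⟨by rw [h1]; push_cast; ring, by rw [h2]; push_cast; ring⟩
    · right; right; right; exact ⟨by rw [h1]; push_cast; ring, by rw [h2]; push_cast; ring⟩
  · -- g = 8
    exfalso
    rcases hcases with ⟨h1, h2⟩ | ⟨h1, h2⟩ <;> push_cast at h1 h2 <;> omega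
  · -- g = 10
    exfalso
    rcases hcases with ⟨h1, h2⟩ | ⟨h1, h2⟩ <;> push_cast at h1 h2 <;> omega
  · -- g = 16
    refine ⟨4 * a, 4 * b, ha'', hb'', ?_⟩
    rcases hcases with ⟨h1, h2⟩ | ⟨h1, h2⟩
    · left; exact ⟨by rw [h1]; push_cast; ring, by rw [h2]; push_cast; ring⟩
    · right; left; exact ⟨by rw [h1]; push_cast; ring, by rw [h2]; push_cast; ring⟩
  · -- g = 20
    refine ⟨2 * a, 2 * b, ha', hb', ?_⟩
    rcases hcases with ⟨h1, h2⟩ | ⟨h1, h2⟩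
    · right; right; left; exact ⟨by rw [h1]; push_cast; ring, by rw [h2]; push_cast; ring⟩
    · right; right; right; exact ⟨by rw [h1]; push_cast; ring, by rw [h2]; push_cast; ring⟩
  · -- g = 40
    exfalso
    rcases hcases with ⟨h1, h2⟩ | ⟨h1, h2⟩ <;> push_cast at h1 h2 <;> omega
  · -- g = 80
    refine ⟨4 * a, 4 * b, ha'', hb'', ?_⟩
    rcases hcases with ⟨h1, h2⟩ | ⟨h1, h2⟩
    · right; right; left; exact ⟨by rw [h1]; push_cast; ring, by rw [h2]; push_cast; ring⟩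
    · right; right; right; exact ⟨by rw [h1]; push_cast; ring, by rw [h2]; push_cast; ring⟩

theorem rat_sq_eq_int (W : ℚ) (Z : ℤ) (h : W ^ 2 = (Z : ℚ)) : ∃ w : ℤ, (w : ℚ) = W := by
  have h1 : (W ^ 2).den = 1 := by rw [h]; exact Rat.den_intCast Z
  rw [Rat.den_pow] at h1
  have h2 : W.den = 1 := by
    rcases Nat.pow_eq_one.mp h1 with h | h
    · exact h
    · omega
  exact ⟨W.num, (Rat.den_eq_one_iff W).mp h2⟩

theorem int_sq_mod_three (x : ℤ) :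
    (x % 3 = 0 ∧ x ^ 2 % 3 = 0) ∨ (x % 3 ≠ 0 ∧ x ^ 2 % 3 = 1) := by
  have h3 : x % 3 = 0 ∨ x % 3 = 1 ∨ x % 3 = 2 := by omega
  have e3 : x ^ 2 % 3 = (x % 3) * (x % 3) % 3 := by
    rw [pow_two, Int.mul_emod]
  rcases h3 with h | h | h <;> rw [h] at e3 <;> norm_num at e3 <;> omega

theorem nat_coprime_mod_three {a b : ℕ} (hab : Nat.Coprime a b) :
    (a : ℤ) % 3 ≠ 0 ∨ (b : ℤ) % 3 ≠ 0 := by
  by_contra hcon
  have h1 : (3:ℤ) ∣ a := by omega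
  have h2 : (3:ℤ) ∣ b := by omega
  have h3 : (3:ℕ) ∣ a := by exact_mod_cast h1
  have h4 : (3:ℕ) ∣ b := by exact_mod_cast h2
  have := Nat.dvd_gcd h3 h4
  rw [hab] at this
  omega

theorem mod3_contra (a b e0 K : ℤ) (hkey : b ^ 2 = 3 * K - a ^ 2 * e0 ^ 2) (h3e : e0 % 3 ≠ 0)
    (hab : a % 3 ≠ 0 ∨ b % 3 ≠ 0) : False := by
  have ha3 := int_sq_mod_three a
  have hb3 := int_sq_mod_three b
  have he3 := int_sq_mod_three e0
  have hprod : (a ^ 2 * e0 ^ 2) % 3 = (a ^ 2 % 3) * (e0 ^ 2 % 3) % 3 := Int.mul_emod _ _ _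
  generalize a ^ 2 * e0 ^ 2 = p at *
  rcases ha3 with ⟨ha3a, ha3b⟩ | ⟨ha3a, ha3b⟩ <;> rcases hb3 with ⟨hb3a, hb3b⟩ | ⟨hb3a, hb3b⟩ <;>
    rcases he3 with ⟨he3a, he3b⟩ | ⟨he3a, he3b⟩ <;>
    rw [ha3b, he3b] at hprod <;> norm_num at hprod <;> omega

/-- Integer form of the first descent step: numerator and denominator are squares. -/
theorem int_sq_form (m n w : ℤ) (hm : 0 < m) (hn : 0 < n) (hmn : IsCoprime m n) (hw : w ≠ 0)
    (h : w ^ 2 = n * (m * ((m - n) * (m - 81 * n)))) :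
    ∃ M e : ℕ, 0 < M ∧ 0 < e ∧ Nat.Coprime M e ∧ m = (M : ℤ) ^ 2 ∧ n = (e : ℤ) ^ 2 ∧
      ∃ N : ℤ, N ≠ 0 ∧ ((M:ℤ)^2 - (e:ℤ)^2) * ((M:ℤ)^2 - 81 * (e:ℤ)^2) = N ^ 2 := by
  -- n is coprime to the rest
  have hnm : IsCoprime n m := hmn.symm
  have hn1 : IsCoprime n (m - n) := by
    have := hnm.add_mul_left_right (-1)
    simpa [sub_eq_add_neg] using this
  have hn2 : IsCoprime n (m - 81 * n) := by
    have := hnm.add_mul_left_right (-81)
    have e : m + n * (-81) = m - 81 * n := by ring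
    rwa [e] at this
  have hnC : IsCoprime n (m * ((m - n) * (m - 81 * n))) := hnm.mul_right (hn1.mul_right hn2)
  obtain ⟨e0, he0⟩ := Int.sq_of_isCoprime hnC h.symm
  have hne : n = e0 ^ 2 := by
    rcases he0 with he0 | he0
    · exact he0
    · exfalso
      have : 0 ≤ e0 ^ 2 := sq_nonneg e0
      omega
  have he00 : e0 ≠ 0 := by
    rintro rfl
    simp at hne
    omega
  -- the cofactor is a square
  have hC : ∃ c0 : ℤ, c0 ≠ 0 ∧ m * ((m - n) * (m - 81 * n)) = c0 ^ 2 := by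
    have hdvd : e0 ∣ w := by
      have : e0 ^ 2 ∣ w ^ 2 := by rw [h, hne]; exact Dvd.intro _ rfl
      exact (Int.pow_dvd_pow_iff two_ne_zero).mp this
    obtain ⟨c0, hc0⟩ := hdvd
    refine ⟨c0, ?_, ?_⟩
    · rintro rfl
      apply hw; rw [hc0]; ring
    · have h1 : e0 ^ 2 * (m * ((m - n) * (m - 81 * n))) = e0 ^ 2 * c0 ^ 2 := by
        linear_combination (-1) * h + (w + e0 * c0) * hc0 - (m * ((m - n) * (m - 81 * n))) * hne
      exact mul_left_cancel₀ (pow_ne_zero 2 he00) h1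
  obtain ⟨c0, hc00, hc0⟩ := hC
  obtain ⟨a, b, ha, hb, hab, hcases⟩ := sq_prod_decomp m ((m - n) * (m - 81 * n)) c0 hc00 hc0
  obtain ⟨g, hg⟩ : ∃ g : ℕ, g = Int.gcd m ((m - n) * (m - 81 * n)) := ⟨_, rfl⟩
  rw [← hg] at hcases
  have hgm : (g : ℤ) ∣ m := hg ▸ Int.gcd_dvd_left _ _
  have hgD : (g : ℤ) ∣ (m - n) * (m - 81 * n) := hg ▸ Int.gcd_dvd_right _ _
  have hm1 : IsCoprime m (m - n) := by
    have := hmn.neg_right.add_mul_left_right 1
    have e : -n + m * 1 = m - n := by ring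
    rwa [e] at this
  have hg1 : IsCoprime (g : ℤ) (m - n) := IsCoprime.of_isCoprime_of_dvd_left hm1 hgm
  have hg2 : (g : ℤ) ∣ m - 81 * n := hg1.dvd_of_dvd_mul_left hgD
  have hg3 : (g : ℤ) ∣ 81 * n := by
    have := dvd_sub hgm hg2
    have e : m - (m - 81 * n) = 81 * n := by ring
    rwa [e] at this
  have hgn : IsCoprime (g : ℤ) n := IsCoprime.of_isCoprime_of_dvd_left hmn hgm
  have hg81 : g ∣ 81 := by
    have : (g : ℤ) ∣ ((81 : ℕ) : ℤ) := by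
      have := hgn.dvd_of_dvd_mul_right hg3
      simpa using this
    exact Int.natCast_dvd_natCast.mp this
  have hg_le : g ≤ 81 := Nat.le_of_dvd (by norm_num) hg81
  have hgcases : g = 1 ∨ g = 3 ∨ g = 9 ∨ g = 27 ∨ g = 81 := by
    clear hg hgm hgD hcases hg1 hg2 hg3 hgn
    interval_cases g <;> first | (exfalso; revert hg81; decide) | simp
  -- sign: m > 0 forces the positive branch
  have hpos : m = (g : ℤ) * (a : ℤ) ^ 2 ∧ (m - n) * (m - 81 * n) = (g : ℤ) * (b : ℤ) ^ 2 := by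
    rcases hcases with hc | ⟨h1, h2⟩
    · exact hc
    · exfalso
      have : 0 ≤ (g : ℤ) * (a : ℤ) ^ 2 := by positivity
      omega
  obtain ⟨hma, hDb⟩ := hpos
  have hcopme : ∀ M : ℕ, m = (M : ℤ) ^ 2 → Nat.Coprime M e0.natAbs := by
    intro M hM
    have h1 : IsCoprime ((M : ℤ) ^ 2) (((e0.natAbs : ℕ) : ℤ) ^ 2) := by
      rw [Int.natAbs_sq, ← hM, ← hne]; exact hmn
    have h2 : IsCoprime (M : ℤ) ((e0.natAbs : ℕ) : ℤ) :=
      IsCoprime.of_isCoprime_of_dvd_left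
        (IsCoprime.of_isCoprime_of_dvd_left h1.symm (dvd_pow_self _ two_ne_zero)).symm
        (dvd_pow_self _ two_ne_zero)
    exact Nat.isCoprime_iff_coprime.mp h2
  have hne' : n = ((e0.natAbs : ℕ) : ℤ) ^ 2 := by rw [Int.natAbs_sq]; exact hne
  have he0pos : 0 < e0.natAbs := Int.natAbs_pos.mpr he00
  -- facts mod 3 for the impossible cases
  have hab3 := nat_coprime_mod_three hab
  have ha3 := int_sq_mod_three (a : ℤ)
  have hb3 := int_sq_mod_three (b : ℤ)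
  have he3 := int_sq_mod_three e0
  rcases hgcases with rfl | rfl | rfl | rfl | rfl
  · -- g = 1
    have hM : m = ((a : ℕ) : ℤ) ^ 2 := by rw [hma]; push_cast; ring
    refine ⟨a, e0.natAbs, ha, he0pos, hcopme a hM, hM, hne', b, by exact_mod_cast hb.ne', ?_⟩
    rw [← hM, ← hne', hDb]; push_cast; ring
  · -- g = 3 : impossible
    exfalso
    push_cast at hma hDb
    -- 3 ∤ e0
    have h3e : e0 % 3 ≠ 0 := by
      intro h3e
      have h1 : (3 : ℤ) ∣ m := ⟨(a:ℤ)^2, hma⟩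
      have h2 : (3 : ℤ) ∣ n := by
        rw [hne]; exact Dvd.dvd.mul_left (Int.dvd_of_emod_eq_zero h3e) _ |>.trans (by rw [pow_two])
      obtain ⟨u, v, huv⟩ := hmn
      have : (3 : ℤ) ∣ 1 := by
        rw [← huv]; exact dvd_add (Dvd.dvd.mul_left h1 u) (Dvd.dvd.mul_left h2 v)
      omega
    have h3b : 3 * (b:ℤ)^2 = (3 * (a:ℤ)^2 - e0^2) * (3 * (a:ℤ)^2 - 81 * e0^2) := by
      rw [← hDb, hma, hne]
    have key : (b : ℤ) ^ 2 = 3 * (((a:ℤ)^2)^2 - 27 * ((a:ℤ)^2 * e0^2) + 9 * (e0^2)^2)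
        - (a:ℤ)^2 * e0 ^ 2 := by
      linarith [h3b]
    exact mod3_contra a b e0 _ key h3e hab3
  · -- g = 9
    have hM : m = ((3 * a : ℕ) : ℤ) ^ 2 := by rw [hma]; push_cast; ring
    refine ⟨3 * a, e0.natAbs, by omega, he0pos, hcopme _ hM, hM, hne', 3 * b, ?_, ?_⟩
    · have : (0:ℤ) < b := by exact_mod_cast hb
      omega
    · rw [← hM, ← hne', hDb]; push_cast; ring
  · -- g = 27 : impossible
    exfalso
    push_cast at hma hDb
    have h3e : e0 % 3 ≠ 0 := by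
      intro h3e
      have h1 : (3 : ℤ) ∣ m := ⟨9 * (a:ℤ)^2, by rw [hma]; ring⟩
      have h2 : (3 : ℤ) ∣ n := by
        rw [hne]; exact Dvd.dvd.mul_left (Int.dvd_of_emod_eq_zero h3e) _ |>.trans (by rw [pow_two])
      obtain ⟨u, v, huv⟩ := hmn
      have : (3 : ℤ) ∣ 1 := by
        rw [← huv]; exact dvd_add (Dvd.dvd.mul_left h1 u) (Dvd.dvd.mul_left h2 v)
      omega
    have h3b : 27 * (b:ℤ)^2 = (27 * (a:ℤ)^2 - e0^2) * (27 * (a:ℤ)^2 - 81 * e0^2) := by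
      rw [← hDb, hma, hne]
    have key : (b : ℤ) ^ 2 = 3 * (9 * ((a:ℤ)^2)^2 - 27 * ((a:ℤ)^2 * e0^2) + (e0^2)^2)
        - (a:ℤ)^2 * e0 ^ 2 := by
      linarith [h3b]
    exact mod3_contra a b e0 _ key h3e hab3
  · -- g = 81
    have hM : m = ((9 * a : ℕ) : ℤ) ^ 2 := by rw [hma]; push_cast; ring
    refine ⟨9 * a, e0.natAbs, by omega, he0pos, hcopme _ hM, hM, hne', 9 * b, ?_, ?_⟩
    · have : (0:ℤ) < b := by exact_mod_cast hb
      omega
    · rw [← hM, ← hne', hDb]; push_cast; ring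

theorem rat_sq_form (x y : ℚ) (hy : y ≠ 0) (h : y ^ 2 = x * (x - 1) * (x - 81)) :
    ∃ M e : ℕ, 0 < M ∧ 0 < e ∧ Nat.Coprime M e ∧ x = (M : ℚ) ^ 2 / (e : ℚ) ^ 2 ∧
      ∃ N : ℤ, N ≠ 0 ∧ ((M:ℤ)^2 - (e:ℤ)^2) * ((M:ℤ)^2 - 81 * (e:ℤ)^2) = N ^ 2 := by
  have hy2 : 0 < y ^ 2 := by positivity
  have hxpos : 0 < x := by
    by_contra hx
    push Not at hx
    have h1 : 0 ≤ (x - 1) * (x - 81) := by nlinarith
    have h2 : x * ((x - 1) * (x - 81)) ≤ 0 := mul_nonpos_of_nonpos_of_nonneg hx h1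
    nlinarith
  have hm : 0 < x.num := Rat.num_pos.mpr hxpos
  have hn : (0:ℤ) < (x.den : ℤ) := by exact_mod_cast x.den_pos
  have hmn : IsCoprime x.num (x.den : ℤ) := by
    rw [Int.isCoprime_iff_gcd_eq_one]
    have := x.reduced
    simpa [Int.gcd, Nat.Coprime] using this
  have hxn : x * (x.den : ℚ) = (x.num : ℚ) := Rat.mul_den_eq_num x
  have hW : (y * (x.den : ℚ) ^ 2) ^ 2 =
      (((x.den : ℤ) * (x.num * ((x.num - (x.den : ℤ)) * (x.num - 81 * (x.den : ℤ)))) : ℤ) : ℚ) := by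
    push_cast
    rw [← hxn]
    have : (y * (x.den : ℚ) ^ 2) ^ 2 = y ^ 2 * (x.den : ℚ) ^ 4 := by ring
    rw [this, h]; ring
  obtain ⟨w, hw⟩ := rat_sq_eq_int _ _ hW
  have hw0 : w ≠ 0 := by
    rintro rfl
    have hden : (x.den : ℚ) ≠ 0 := by exact_mod_cast x.den_nz
    have : y * (x.den : ℚ) ^ 2 ≠ 0 := mul_ne_zero hy (pow_ne_zero 2 hden)
    apply this; rw [← hw]; simp
  have hwZ : w ^ 2 = (x.den : ℤ) * (x.num * ((x.num - (x.den : ℤ)) * (x.num - 81 * (x.den : ℤ)))) := by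
    have : ((w ^ 2 : ℤ) : ℚ) = (((x.den : ℤ) * (x.num * ((x.num - (x.den : ℤ)) *
        (x.num - 81 * (x.den : ℤ)))) : ℤ) : ℚ) := by
      rw [← hW, ← hw]; push_cast; ring
    exact_mod_cast this
  obtain ⟨M, e, hM, he, hcop, hmM, hne, N, hN0, hN⟩ := int_sq_form _ _ w hm hn hmn hw0 hwZ
  refine ⟨M, e, hM, he, hcop, ?_, N, hN0, hN⟩
  have h1 : (x.num : ℚ) = (M : ℚ) ^ 2 := by exact_mod_cast hmM
  have h2 : (x.den : ℚ) = (e : ℚ) ^ 2 := by exact_mod_cast hne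
  rw [← h1, ← h2]
  exact (Rat.num_div_den x).symm

/-- The halving step of the descent. -/
theorem descent_halving (P Q R S : ℕ) (hQ : 0 < Q) (hR : 0 < R) (hS : 0 < S)
    (h1 : (P:ℤ)^2 = (Q:ℤ)^2 + (R:ℤ)^2) (h2 : (P:ℤ)^2 = 81 * (Q:ℤ)^2 + (S:ℤ)^2) :
    ∃ M₁ e₁ : ℕ, 0 < M₁ ∧ 0 < e₁ ∧ Nat.Coprime M₁ e₁ ∧ M₁ ^ 2 < 2 * P ∧ e₁ ^ 2 < P ∧
      ∃ N : ℤ, N ≠ 0 ∧ ((M₁:ℤ)^2 - (e₁:ℤ)^2) * ((M₁:ℤ)^2 - 81 * (e₁:ℤ)^2) = N ^ 2 := by
  have hRP : R < P := by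
    have : (R:ℤ) < P := by
      have hq : (0:ℤ) < Q := by exact_mod_cast hQ
      nlinarith
    exact_mod_cast this
  have hSP : S < P := by
    have : (S:ℤ) < P := by
      have hq : (0:ℤ) < Q := by exact_mod_cast hQ
      nlinarith
    exact_mod_cast this
  have hP : 0 < P := by omega
  have hq : (0:ℚ) < Q := by exact_mod_cast hQ
  have hr : (0:ℚ) < R := by exact_mod_cast hR
  have hs : (0:ℚ) < S := by exact_mod_cast hS
  have hp : (0:ℚ) < P := by exact_mod_cast hP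
  have h1q : (P:ℚ)^2 = (Q:ℚ)^2 + (R:ℚ)^2 := by exact_mod_cast h1
  have h2q : (P:ℚ)^2 = 81 * (Q:ℚ)^2 + (S:ℚ)^2 := by exact_mod_cast h2
  have hq0 : (Q:ℚ) ≠ 0 := hq.ne'
  set x₁ : ℚ := ((P:ℚ) + R) * ((P:ℚ) + S) / (Q:ℚ)^2 with hx₁
  set y₁ : ℚ := ((P:ℚ) + R) * ((P:ℚ) + S) * ((R:ℚ) + S) / (Q:ℚ)^3 with hy₁
  have hx1 : x₁ - 1 = ((R:ℚ) + P) * ((R:ℚ) + S) / (Q:ℚ)^2 := by
    rw [hx₁]; field_simp; linear_combination h1q
  have hx81 : x₁ - 81 = ((S:ℚ) + P) * ((S:ℚ) + R) / (Q:ℚ)^2 := by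
    rw [hx₁]; field_simp; linear_combination h2q
  have hcurve : y₁ ^ 2 = x₁ * (x₁ - 1) * (x₁ - 81) := by
    rw [hx1, hx81, hx₁, hy₁]; field_simp; ring
  have hy0 : y₁ ≠ 0 := by
    rw [hy₁]; positivity
  obtain ⟨M₁, e₁, hM₁, he₁, hcop, hx, N, hN0, hN⟩ := rat_sq_form x₁ y₁ hy0 hcurve
  have he₁q : (e₁:ℚ) ≠ 0 := by exact_mod_cast he₁.ne'
  have hPRq : (P:ℚ) + R ≠ 0 := by positivity
  have keyq : ((e₁:ℚ)^2) * ((P:ℚ) + S) = (M₁:ℚ)^2 * ((P:ℚ) - R) := by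
    have hx' : ((P:ℚ) + R) * ((P:ℚ) + S) * (e₁:ℚ)^2 = (M₁:ℚ)^2 * (Q:ℚ)^2 := by
      have := hx
      rw [hx₁] at this
      field_simp at this
      linear_combination this
    have hQ2 : (Q:ℚ)^2 = ((P:ℚ) - R) * ((P:ℚ) + R) := by linear_combination -h1q
    rw [hQ2] at hx'
    have : ((P:ℚ) + R) * ((e₁:ℚ)^2 * ((P:ℚ) + S)) = ((P:ℚ) + R) * ((M₁:ℚ)^2 * ((P:ℚ) - R)) := by
      linear_combination hx'
    exact mul_left_cancel₀ hPRq this
  have key : ((e₁:ℤ)^2) * ((P:ℤ) + S) = (M₁:ℤ)^2 * ((P:ℤ) - R) := by exact_mod_cast keyq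
  have hcopZ : IsCoprime ((M₁:ℤ)^2) ((e₁:ℤ)^2) := (Nat.Coprime.isCoprime hcop).pow
  have hd1 : ((M₁:ℤ)^2) ∣ ((P:ℤ) + S) := by
    have : ((M₁:ℤ)^2) ∣ ((e₁:ℤ)^2) * ((P:ℤ) + S) := ⟨_, key⟩
    exact hcopZ.dvd_of_dvd_mul_left this
  have hd2 : ((e₁:ℤ)^2) ∣ ((P:ℤ) - R) := by
    have : ((e₁:ℤ)^2) ∣ ((M₁:ℤ)^2) * ((P:ℤ) - R) := ⟨_, key.symm⟩
    exact hcopZ.symm.dvd_of_dvd_mul_left this
  have hle1 : ((M₁:ℤ)^2) ≤ (P:ℤ) + S := Int.le_of_dvd (by positivity) hd1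
  have hle2 : ((e₁:ℤ)^2) ≤ (P:ℤ) - R := Int.le_of_dvd (by omega) hd2
  refine ⟨M₁, e₁, hM₁, he₁, hcop, ?_, ?_, N, hN0, hN⟩
  · have : ((M₁:ℤ)^2) < 2 * (P:ℤ) := by omega
    exact_mod_cast this
  · have : ((e₁:ℤ)^2) < (P:ℤ) := by omega
    exact_mod_cast this

/-- Main descent: the equation has no solutions in positive coprime naturals. -/
theorem descent_main : ∀ μ M e : ℕ, M ≤ μ → e ≤ μ → 0 < M → 0 < e → Nat.Coprime M e →
    ∀ N : ℤ, N ≠ 0 → ((M:ℤ)^2 - (e:ℤ)^2) * ((M:ℤ)^2 - 81 * (e:ℤ)^2) = N ^ 2 → False := by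
  intro μ
  induction μ using Nat.strong_induction_on with
  | _ μ ih =>
    intro M e hMμ heμ hM he hcop N hN h
    by_cases hμ : μ < 18
    · exact descent_no_small M e hM he (by omega) (by omega) N hN h
    · push Not at hμ
      obtain ⟨k, l, hk, hl, hcases⟩ := descent_classify M e hcop N hN h
      have hMz : (0:ℤ) < M := by exact_mod_cast hM
      have hez : (0:ℤ) < e := by exact_mod_cast he
      have hkz : (0:ℤ) < k := by exact_mod_cast hk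
      have hlz : (0:ℤ) < l := by exact_mod_cast hl
      have hMμz : (M:ℤ) ≤ μ := by exact_mod_cast hMμ
      have heμz : (e:ℤ) ≤ μ := by exact_mod_cast heμ
      have hμz : (18:ℤ) ≤ μ := by exact_mod_cast hμ
      -- it suffices to produce P ≤ 9 μ with a halving quadruple
      have finish : ∀ P Q R S : ℕ, 0 < Q → 0 < R → 0 < S → P ≤ 9 * μ →
          (P:ℤ)^2 = (Q:ℤ)^2 + (R:ℤ)^2 → (P:ℤ)^2 = 81 * (Q:ℤ)^2 + (S:ℤ)^2 → False := by
        intro P Q R S hQ hR hS hP h1 h2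
        obtain ⟨M₁, e₁, hM₁, he₁, hcop₁, hb1, hb2, N₁, hN₁, hh⟩ :=
          descent_halving P Q R S hQ hR hS h1 h2
        have hM₁μ : M₁ < μ := by
          by_contra hcon
          push Not at hcon
          have : μ ^ 2 ≤ M₁ ^ 2 := Nat.pow_le_pow_left hcon 2
          nlinarith
        have he₁μ : e₁ < μ := by
          by_contra hcon
          push Not at hcon
          have : μ ^ 2 ≤ e₁ ^ 2 := Nat.pow_le_pow_left hcon 2
          nlinarith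
        exact ih (μ - 1) (by omega) M₁ e₁ (by omega) (by omega) hM₁ he₁ hcop₁ N₁ hN₁ hh
      rcases hcases with ⟨hA, hB⟩ | ⟨hA, hB⟩ | ⟨hA, hB⟩ | ⟨hA, hB⟩
      · -- d = 1 : (P,Q,R,S) = (M, e, k, l)
        exact finish M e k l he hk hl (by omega) (by linarith) (by linarith)
      · -- d = -1 : (P,Q,R,S) = (9e, M, l, 9k)
        refine finish (9 * e) M l (9 * k) hM hl (by omega) (by omega) ?_ ?_
        · push_cast; linarith
        · push_cast; linarith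
      · -- d = 5 : (P,Q,R,S) = (9k, l, 4M, 36e)
        have hkM : k ≤ M := by
          have : (k:ℤ) ≤ M := by nlinarith
          exact_mod_cast this
        refine finish (9 * k) l (4 * M) (36 * e) hl (by omega) (by omega) (by omega) ?_ ?_
        · push_cast; linarith
        · push_cast; linarith
      · -- d = -5 : (P,Q,R,S) = (l, k, 4e, 4M)
        have hle : l ≤ 9 * e := by
          have : (l:ℤ) ≤ 9 * e := by nlinarith
          exact_mod_cast this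
        refine finish l k (4 * e) (4 * M) hk (by omega) (by omega) (by omega) ?_ ?_
        · push_cast; linarith
        · push_cast; linarith

/-- Rational points of `y² = x(x-1)(x-81)` (15a2): only the 2-torsion. -/
theorem rat_points_15a2 (x y : ℚ) (h : y ^ 2 = x * (x - 1) * (x - 81)) : y = 0 := by
  by_contra hy
  obtain ⟨M, e, hM, he, hcop, -, N, hN0, hN⟩ := rat_sq_form x y hy h
  exact descent_main (max M e) M e (le_max_left _ _) (le_max_right _ _) hM he hcop N hN0 hN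

/-- Rational points of `Y² = X(X-9)(X-25)` (15a1). -/
theorem rat_points_15a1 (X Y : ℚ) (h : Y ^ 2 = X * (X - 9) * (X - 25)) :
    X = 0 ∨ X = 5 ∨ X = 9 ∨ X = 25 ∨ X = 45 := by
  by_cases hX : X = 25
  · right; right; right; left; exact hX
  have hx : X - 25 ≠ 0 := sub_ne_zero.mpr hX
  have key := rat_points_15a2 ((X - 25 + 16) * (X - 25 + 25) / (X - 25))
    (Y * ((X - 25) ^ 2 - 400) / (X - 25) ^ 2) (by
      field_simp
      linear_combination ((X - 25) ^ 2 - 400) ^ 2 * h)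
  have h0 : Y * ((X - 25) ^ 2 - 400) = 0 := by
    have := key
    rw [div_eq_zero_iff] at this
    rcases this with h1 | h1
    · exact h1
    · exact absurd (pow_eq_zero_iff (two_ne_zero) |>.mp h1) hx
  rcases mul_eq_zero.mp h0 with hY | hq
  · rw [hY] at h
    have h1 : X * (X - 9) * (X - 25) = 0 := by rw [← h]; ring
    rcases mul_eq_zero.mp h1 with h2 | h2
    · rcases mul_eq_zero.mp h2 with h3 | h3
      · left; exact h3
      · right; right; left; linarith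
    · exact absurd h2 hx
  · have h1 : (X - 45) * (X - 5) = 0 := by linear_combination hq
    rcases mul_eq_zero.mp h1 with h2 | h2
    · right; right; right; right; linarith
    · right; left; linarith

end Fermat.Agent.S51
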