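/-
Semistability endgame for S51: the four non-cuspidal rational points of X₀(15) have
`s ∈ {-10, -40, -25/2, -25/8}`, and the relation `c₄³ s = Δ (s² + 10 s + 5)³` then forces
`5 ∣ c₄` and `5 ∣ Δ`, contradicting semistability at `5`.
-/
import Mathlib
import Fermat.Prelude.Def_FLTPrelim_Modularity

set_option linter.unusedTactic false
set_option linter.unusedVariables false

namespace Fermat.Agent.S51

/-- Integer core of the endgame: `u c³ = 5 w D` with `5 ∤ u`, `25 ∤ w` forces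
`5 ∣ c` and `5 ∣ D`. -/
theorem endgame_core (c D u w : ℤ) (hu : ¬ (5 : ℤ) ∣ u) (hw : ¬ (25 : ℤ) ∣ w)
    (h : u * c ^ 3 = 5 * w * D) : (5 : ℤ) ∣ c ∧ (5 : ℤ) ∣ D := by
  have h5 : Prime (5 : ℤ) := Int.prime_iff_natAbs_prime.mpr (by norm_num)
  have h1 : (5 : ℤ) ∣ u * c ^ 3 := ⟨w * D, by rw [h]; ring⟩
  have h2 : (5 : ℤ) ∣ c ^ 3 := (h5.dvd_or_dvd h1).resolve_left hu
  have h3 : (5 : ℤ) ∣ c := Int.Prime.dvd_pow' Nat.prime_five h2
  refine ⟨h3, ?_⟩
  obtain ⟨t, rfl⟩ := h3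
  have h4 : 25 * (u * t ^ 3) = w * D := by
    have : 5 * (25 * (u * t ^ 3)) = 5 * (w * D) := by linear_combination h
    exact mul_left_cancel₀ (by norm_num) this
  by_contra hD
  have hcop : IsCoprime (5 : ℤ) D := (Prime.coprime_iff_not_dvd h5).mpr hD
  have hcop2 : IsCoprime ((5 : ℤ) ^ 2) D := hcop.pow_left
  have h6 : ((5 : ℤ) ^ 2) ∣ w * D := ⟨u * t ^ 3, by rw [← h4]; ring⟩
  have h7 : ((5 : ℤ) ^ 2) ∣ w := hcop2.dvd_of_dvd_mul_right h6
  exact hw (by norm_num at h7; exact h7)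

/-- Semistability endgame: none of the four non-cuspidal rational points of `X₀(15)`
can come from a semistable integral model. -/
theorem semistable_endgame (W : WeierstrassCurve ℤ) (hW : W.IsSemistableModel) (s : ℚ)
    (hs : s = -10 ∨ s = -40 ∨ s = -25 / 2 ∨ s = -25 / 8)
    (h : (W.c₄ : ℚ) ^ 3 * s = (W.Δ : ℚ) * (s ^ 2 + 10 * s + 5) ^ 3) : False := by
  have key : (5 : ℤ) ∣ W.c₄ ∧ (5 : ℤ) ∣ W.Δ := by
    rcases hs with rfl | rfl | rfl | rfl
    · -- s = -10 : -10 c³ = 125 Δ, i.e. (-2) c³ = 5 * 5 * Δ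
      apply endgame_core W.c₄ W.Δ (-2) 5 (by norm_num) (by norm_num)
      have : ((-2 * W.c₄ ^ 3 : ℤ) : ℚ) = ((5 * 5 * W.Δ : ℤ) : ℚ) := by
        push_cast; linear_combination h / 5
      exact_mod_cast this
    · -- s = -40 : -40 c³ = 1205³ Δ, i.e. (-8) c³ = 5 * (5 * 241³) Δ
      apply endgame_core W.c₄ W.Δ (-8) (5 * 241 ^ 3) (by norm_num) (by norm_num)
      have : ((-8 * W.c₄ ^ 3 : ℤ) : ℚ) = ((5 * (5 * 241 ^ 3) * W.Δ : ℤ) : ℚ) := by
        push_cast; linear_combination h / 5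
      exact_mod_cast this
    · -- s = -25/2 : (-25/2) c³ = (145/4)³ Δ, i.e. (-32) c³ = 5 * 29³ Δ
      apply endgame_core W.c₄ W.Δ (-32) (29 ^ 3) (by norm_num) (by norm_num)
      have : ((-32 * W.c₄ ^ 3 : ℤ) : ℚ) = ((5 * 29 ^ 3 * W.Δ : ℤ) : ℚ) := by
        push_cast; linear_combination (64 / 25 : ℚ) * h
      exact_mod_cast this
    · -- s = -25/8 : (-25/8) c³ = (-1055/64)³ Δ, i.e. 32768 c³ = 5 * 211³ Δ
      apply endgame_core W.c₄ W.Δ 32768 (211 ^ 3) (by norm_num) (by norm_num)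
      have : ((32768 * W.c₄ ^ 3 : ℤ) : ℚ) = ((5 * 211 ^ 3 * W.Δ : ℤ) : ℚ) := by
        push_cast; linear_combination (-262144 / 25 : ℚ) * h
      exact_mod_cast this
  exact hW 5 Nat.prime_five key.2 key.1

/-- A semistable integral model with nonzero discriminant has `c₄ ≠ 0`. -/
theorem c₄_ne_zero_of_semistable (W : WeierstrassCurve ℤ) (hW : W.IsSemistableModel)
    (hΔ : W.Δ ≠ 0) : W.c₄ ≠ 0 := by
  intro hc
  -- no prime divides Δ
  have hnp : ∀ p : ℕ, p.Prime → ¬ (p : ℤ) ∣ W.Δ := by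
    intro p hp hdvd
    exact hW p hp hdvd (by rw [hc]; exact dvd_zero _)
  have habs : W.Δ.natAbs = 1 := by
    by_contra hne
    obtain ⟨p, hp, hpd⟩ := Nat.exists_prime_and_dvd hne
    exact hnp p hp (Int.natCast_dvd.mpr hpd)
  have hrel := W.c_relation
  rw [hc] at hrel
  have h1 : W.Δ = 1 ∨ W.Δ = -1 := by omega
  rcases h1 with h1 | h1
  · rw [h1] at hrel
    nlinarith [sq_nonneg W.c₆]
  · rw [h1] at hrel
    have hsq : IsSquare (1728 : ℤ) := ⟨W.c₆, by linear_combination -hrel⟩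
    norm_num at hsq

end Fermat.Agent.S51
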