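import Fermat.Agent.S51.Tate
import Mathlib.FieldTheory.IsAlgClosed.Basic
import Mathlib.Tactic.ComputeDegree
import Mathlib.Tactic.LinearCombination
import Mathlib.Tactic.FieldSimp
import Mathlib.Tactic.Ring

set_option autoImplicit false
set_option linter.unusedSectionVars false

/-!
# S51 helper: existence of points of order 3 and 5 over an algebraically closed field
of characteristic zero
-/

namespace Fermat.Agent.S51

open WeierstrassCurve WeierstrassCurve.Affine Polynomial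

variable {K : Type*} [Field K] [DecidableEq K] {W : Affine K}

/-- Over an algebraically closed field, every `x` is the `x`-coordinate of a nonzero point. -/
lemma ex_point_of_x [IsAlgClosed K] (hΔ : W.Δ ≠ 0) (x : K) :
    ∃ P : W.Point, P ≠ 0 ∧ xOf P = x := by
  obtain ⟨y, hy⟩ := IsAlgClosed.exists_root
    (X ^ 2 + C (W.a₁ * x + W.a₃) * X - C (x ^ 3 + W.a₂ * x ^ 2 + W.a₄ * x + W.a₆) : K[X])
    (by
      have : (X ^ 2 + C (W.a₁ * x + W.a₃) * X - C (x ^ 3 + W.a₂ * x ^ 2 + W.a₄ * x + W.a₆)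
          : K[X]).degree = 2 := by
        compute_degree!
      rw [this]; norm_num)
  have heq : W.Equation x y := by
    rw [equation_iff]
    simp only [IsRoot, eval_sub, eval_add, eval_pow, eval_X, eval_mul, eval_C] at hy
    linear_combination hy
  have hns : W.Nonsingular x y := (equation_iff_nonsingular_of_Δ_ne_zero hΔ).mp heq
  exact ⟨Point.some x y hns, Point.some_ne_zero _, rfl⟩

/-- Existence of a point of order 3. -/
theorem exists_three_torsion [IsAlgClosed K] [CharZero K] (hΔ : W.Δ ≠ 0) :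
    ∃ Q : W.Point, Q ≠ 0 ∧ 3 • Q = 0 := by
  obtain ⟨x, hx⟩ := IsAlgClosed.exists_root
    (C 3 * X ^ 4 + C W.b₂ * X ^ 3 + C (3 * W.b₄) * X ^ 2 + C (3 * W.b₆) * X + C W.b₈ : K[X])
    (by
      have : (C 3 * X ^ 4 + C W.b₂ * X ^ 3 + C (3 * W.b₄) * X ^ 2 + C (3 * W.b₆) * X + C W.b₈
          : K[X]).degree = 4 := by
        compute_degree!
      rw [this]; norm_num)
  obtain ⟨Q, hQ, hxQ⟩ := ex_point_of_x hΔ x
  refine ⟨Q, hQ, (three_nsmul_iff hQ).mpr ?_⟩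
  rw [hxQ]
  simp only [IsRoot, eval_add, eval_pow, eval_X, eval_mul, eval_C] at hx
  simp only [psi3]
  linear_combination hx

lemma c₆_eq_tb (W : Affine K) (x : K) :
    W.c₆ = -tb2 W x ^ 3 + 36 * tb2 W x * tb4 W x - 216 * psi2sq W x := by
  simp only [WeierstrassCurve.c₆, tb2, tb4, psi2sq]; ring

/-- The reverse of the Tate normal form computation: from `(v, β)` with `c₄ = v² C₄(β)`,
`c₆ = v³ C₆(β)` build a pair `(x₁, x₂)` satisfying the order-5 relations. -/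
lemma ex5_fiveRel_of_params [CharZero K] (v β : K) (hv : v ≠ 0) (hβ : β ≠ 0)
    (h4 : W.c₄ = v ^ 2 * (β ^ 4 - 12 * β ^ 3 + 14 * β ^ 2 + 12 * β + 1))
    (h6 : W.c₆ = v ^ 3 * (-(β ^ 2 - 6 * β + 1) ^ 3 + 36 * (β ^ 2 - 6 * β + 1) * (β ^ 2 - β)
      - 216 * β ^ 2)) :
    ∃ x₁ x₂ : K, FiveRel W x₁ x₂ := by
  set r : K := (v * (β ^ 2 - 6 * β + 1) - W.b₂) / 12 with hr
  have e2 : tb2 W r = v * (β ^ 2 - 6 * β + 1) := by
    simp only [tb2, hr]; field_simp; ring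
  have e4 : tb4 W r = v ^ 2 * (β ^ 2 - β) := by
    have := c₄_eq_tb W r
    rw [e2, h4] at this
    have h24 : (24 : K) ≠ 0 := by norm_num
    apply mul_left_cancel₀ h24
    linear_combination this
  have e6 : psi2sq W r = v ^ 3 * β ^ 2 := by
    have := c₆_eq_tb W r
    rw [e2, e4, h6] at this
    have h216 : (216 : K) ≠ 0 := by norm_num
    apply mul_left_cancel₀ h216
    linear_combination this
  have e8 : psi3 W r = -(v ^ 4 * β ^ 3) := by
    have := tb_relation W r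
    rw [e2, e4, e6] at this
    have h4' : (4 : K) ≠ 0 := by norm_num
    apply mul_left_cancel₀ h4'
    linear_combination this
  refine ⟨r, r + v * β, ?_, ?_, ?_, ?_, ?_⟩
  · intro h
    have : v * β = 0 := by linear_combination -h
    exact mul_ne_zero hv hβ this
  · rw [e6]; exact mul_ne_zero (pow_ne_zero _ hv) (pow_ne_zero _ hβ)
  · rw [psi2sq_add, e2, e4, e6]
    have : 4 * (v * β) ^ 3 + v * (β ^ 2 - 6 * β + 1) * (v * β) ^ 2
        + 2 * (v ^ 2 * (β ^ 2 - β)) * (v * β) + v ^ 3 * β ^ 2 = v ^ 3 * β ^ 4 := by ring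
    rw [this]; exact mul_ne_zero (pow_ne_zero _ hv) (pow_ne_zero _ hβ)
  · rw [e6, e8]; ring
  · rw [psi2sq_add, psi3_add, e2, e4, e6, e8]; ring

/-- Existence of Tate parameters `(v, β)` for a curve with `c₄ ≠ 0`. -/
lemma ex5_params [IsAlgClosed K] [CharZero K] (hΔ : W.Δ ≠ 0) (hc4 : W.c₄ ≠ 0) :
    ∃ v β : K, v ≠ 0 ∧ β ≠ 0 ∧
      W.c₄ = v ^ 2 * (β ^ 4 - 12 * β ^ 3 + 14 * β ^ 2 + 12 * β + 1) ∧
      W.c₆ = v ^ 3 * (-(β ^ 2 - 6 * β + 1) ^ 3 + 36 * (β ^ 2 - 6 * β + 1) * (β ^ 2 - β)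
        - 216 * β ^ 2) := by
  obtain ⟨β, hβ⟩ := IsAlgClosed.exists_root
    (C W.Δ * (X ^ 4 - C 12 * X ^ 3 + C 14 * X ^ 2 + C 12 * X + C 1) ^ 3
      - C (W.c₄ ^ 3) * (X ^ 5 * (X ^ 2 - C 11 * X - C 1)) : K[X])
    (by
      have : (C W.Δ * (X ^ 4 - C 12 * X ^ 3 + C 14 * X ^ 2 + C 12 * X + C 1) ^ 3
          - C (W.c₄ ^ 3) * (X ^ 5 * (X ^ 2 - C 11 * X - C 1)) : K[X]).degree = 12 := by
        compute_degree!
      rw [this]; norm_num)
  simp only [IsRoot, eval_sub, eval_add, eval_pow, eval_X, eval_mul, eval_C] at hβ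
  have hroot : W.Δ * (β ^ 4 - 12 * β ^ 3 + 14 * β ^ 2 + 12 * β + 1) ^ 3
      = W.c₄ ^ 3 * (β ^ 5 * (β ^ 2 - 11 * β - 1)) := by linear_combination hβ
  -- `C₄(β) ≠ 0`
  have hC4 : β ^ 4 - 12 * β ^ 3 + 14 * β ^ 2 + 12 * β + 1 ≠ 0 := by
    intro h0
    rw [h0] at hroot
    have hD : β ^ 5 * (β ^ 2 - 11 * β - 1) = 0 := by
      have : W.c₄ ^ 3 * (β ^ 5 * (β ^ 2 - 11 * β - 1)) = 0 := by
        rw [← hroot]; ring
      exact (mul_eq_zero.mp this).resolve_left (pow_ne_zero _ hc4)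
    rcases mul_eq_zero.mp hD with h | h
    · have hβ0 : β = 0 := pow_eq_zero_iff (by norm_num) |>.mp h
      rw [hβ0] at h0
      norm_num at h0
    · have h5 : 5 * β ^ 2 = 0 := by
        linear_combination h0 - (β ^ 2 - β - 1) * h
      have hβ0 : β = 0 := by
        have : β ^ 2 = 0 := (mul_eq_zero.mp h5).resolve_left (by norm_num)
        exact pow_eq_zero_iff (by norm_num) |>.mp this
      rw [hβ0] at h
      norm_num at h
  have hβ0 : β ≠ 0 := by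
    intro h0
    rw [h0] at hroot
    have : W.Δ = 0 := by
      have : W.Δ * (0 ^ 4 - 12 * 0 ^ 3 + 14 * 0 ^ 2 + 12 * 0 + 1) ^ 3 = 0 := by
        rw [hroot]; ring
      simpa using this
    exact hΔ this
  obtain ⟨v, hv⟩ := IsAlgClosed.exists_pow_nat_eq
    (W.c₄ / (β ^ 4 - 12 * β ^ 3 + 14 * β ^ 2 + 12 * β + 1)) (n := 2) (by norm_num)
  have hv2 : W.c₄ = v ^ 2 * (β ^ 4 - 12 * β ^ 3 + 14 * β ^ 2 + 12 * β + 1) := by
    rw [hv, div_mul_cancel₀ _ hC4]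
  have hv0 : v ≠ 0 := by
    intro h0
    rw [h0] at hv2
    apply hc4
    rw [hv2]; ring
  have hrel := W.c_relation
  -- `c₆² = (v³ C₆)²`
  have hsq : W.c₆ ^ 2 = (v ^ 3 * (-(β ^ 2 - 6 * β + 1) ^ 3
      + 36 * (β ^ 2 - 6 * β + 1) * (β ^ 2 - β) - 216 * β ^ 2)) ^ 2 := by
    have h3 : (β ^ 4 - 12 * β ^ 3 + 14 * β ^ 2 + 12 * β + 1) ^ 3 ≠ 0 := pow_ne_zero _ hC4
    apply mul_left_cancel₀ h3
    rw [hv2] at hroot hrel
    linear_combination (-1728 : K) * hroot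
      + (β ^ 4 - 12 * β ^ 3 + 14 * β ^ 2 + 12 * β + 1) ^ 3 * hrel
  rcases sq_eq_sq_iff_eq_or_eq_neg.mp hsq with h | h
  · exact ⟨v, β, hv0, hβ0, hv2, h⟩
  · refine ⟨-v, β, neg_ne_zero.mpr hv0, hβ0, ?_, ?_⟩
    · rw [hv2]; ring
    · rw [h]; ring

/-- Existence of a point of order 5 (for `c₄ ≠ 0`). -/
theorem exists_five_torsion [IsAlgClosed K] [CharZero K] (hΔ : W.Δ ≠ 0) (hc4 : W.c₄ ≠ 0) :
    ∃ P : W.Point, P ≠ 0 ∧ 5 • P = 0 := by
  obtain ⟨v, β, hv, hβ, h4, h6⟩ := ex5_params hΔ hc4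
  obtain ⟨x₁, x₂, hrel⟩ := ex5_fiveRel_of_params v β hv hβ h4 h6
  obtain ⟨P, hP, hxP⟩ := ex_point_of_x hΔ x₁
  refine ⟨P, hP, five_nsmul_of_fiveRel hP (x₂ := x₂) ?_⟩
  rw [hxP]; exact hrel

end Fermat.Agent.S51
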