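import Fermat.Agent.S51.Galois
import Mathlib.FieldTheory.Galois.Infinite
import Mathlib.FieldTheory.IsAlgClosed.AlgebraicClosure

set_option autoImplicit false
set_option linter.unusedSectionVars false

/-!
# S51 helper: from a Galois-stable pair (line of order 5, line of order 3) to a rational
point of `Y² = X (X - 9) (X - 25)` and the value of `s`.
-/

namespace Fermat.Agent.S51

open WeierstrassCurve WeierstrassCurve.Affine

variable {F : Type*} {K : Type*} [Field F] [Field K] [Algebra F K] [DecidableEq K]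
  {E : Affine F}

section
variable {P Q : (E⁄K).Point} (hP : P ≠ 0) (h5 : 5 • P = 0) (hQ : Q ≠ 0) (h3 : 3 • Q = 0)
include hP h5 hQ h3

lemma xq_ne_x1 : xOf Q ≠ xOf P := by
  intro h
  have e3 : Q + Q + Q = 0 := by rw [← h3]; abel
  have e5 : P + P + P + P + P = 0 := by rw [← h5]; abel
  rcases eq_or_eq_neg_of_xOf_eq hQ hP h with h' | h'
  · subst h'
    apply hP
    linear_combination (norm := abel) (2 : ℤ) • e3 - e5
  · have hQ' : P = -Q := by rw [h', neg_neg]
    subst hQ'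
    apply hQ
    linear_combination (norm := abel) (2 : ℤ) • e3 + e5

lemma xq_ne_x2 : xOf Q ≠ xOf (P + P) := by
  have e3 : Q + Q + Q = 0 := by rw [← h3]; abel
  have e5 : P + P + P + P + P = 0 := by rw [← h5]; abel
  have h2 : P + P ≠ 0 := by
    intro h
    apply hP
    linear_combination (norm := abel) e5 - (2 : ℤ) • h
  intro h
  rcases eq_or_eq_neg_of_xOf_eq hQ h2 h with h' | h'
  · apply hP
    have e3' : (P + P) + (P + P) + (P + P) = 0 := by rw [← h']; exact e3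
    linear_combination (norm := abel) e3' - e5
  · apply hP
    have e3' : (P + P) + (P + P) + (P + P) = 0 := by
      have : P + P = -Q := by rw [h', neg_neg]
      rw [this]
      linear_combination (norm := abel) (-1 : ℤ) • e3
    linear_combination (norm := abel) e3' - e5

end

end Fermat.Agent.S51

namespace Fermat.Agent.S51

open WeierstrassCurve WeierstrassCurve.Affine

variable {K : Type*} [Field K] [Algebra ℚ K] [DecidableEq K] [IsGalois ℚ K]
  {E : Affine ℚ}

section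
variable {P Q : (E⁄K).Point} (hP : P ≠ 0) (h5 : 5 • P = 0) (hQ : Q ≠ 0) (h3 : 3 • Q = 0)
  (hσQ : ∀ σ : K ≃ₐ[ℚ] K, σ • Q = Q ∨ σ • Q = -Q)
  (hσP : ∀ σ : K ≃ₐ[ℚ] K, σ • P = P ∨ σ • P = -P ∨ σ • P = P + P ∨ σ • P = -(P + P))

include hσQ in
lemma sigma_xq (σ : K ≃ₐ[ℚ] K) : σ (xOf Q) = xOf Q := by
  rw [← xOf_smul]
  rcases hσQ σ with h | h
  · rw [h]
  · rw [h, xOf_neg]

include h5 hσP in
lemma sigma_x12 (σ : K ≃ₐ[ℚ] K) :
    (σ (xOf P) = xOf P ∧ σ (xOf (P + P)) = xOf (P + P)) ∨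
    (σ (xOf P) = xOf (P + P) ∧ σ (xOf (P + P)) = xOf P) := by
  have e5 : P + P + P + P + P = 0 := by rw [← h5]; abel
  have h4 : (P + P) + (P + P) = -P := by
    linear_combination (norm := abel) e5
  have hadd : σ • (P + P) = σ • P + σ • P := smul_add σ P P
  rw [← xOf_smul, ← xOf_smul, hadd]
  rcases hσP σ with h | h | h | h
  · left; rw [h]; exact ⟨rfl, rfl⟩
  · left; rw [h, ← neg_add, xOf_neg, xOf_neg]; exact ⟨rfl, rfl⟩
  · right; rw [h, h4, xOf_neg]; exact ⟨rfl, rfl⟩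
  · right; rw [h, ← neg_add, h4, xOf_neg, neg_neg]; exact ⟨rfl, rfl⟩

include hP h5 hQ h3 hσQ hσP in
/-- Main configuration theorem: a Galois-stable line of order 5 and a Galois-stable line of
order 3 produce a rational point on `Y² = X (X - 9) (X - 25)`; given the list of rational
points of that curve, the Tate parameter has `s ∈ {-10, -40, -25/2, -25/8}`. -/
theorem exists_s_of_config (hΔ : E.Δ ≠ 0)
    (hdesc : ∀ X Y : ℚ, Y ^ 2 = X * (X - 9) * (X - 25) →
      X = 0 ∨ X = 5 ∨ X = 9 ∨ X = 25 ∨ X = 45) :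
    ∃ s : ℚ, (s = -10 ∨ s = -40 ∨ s = -25 / 2 ∨ s = -25 / 8) ∧
      E.c₄ ^ 3 * s = E.Δ * (s ^ 2 + 10 * s + 5) ^ 3 := by
  haveI : CharZero K := algebraRat.charZero K
  have hrel : FiveRel (E⁄K) (xOf P) (xOf (P + P)) := fiveRel_of_five_nsmul hP h5
  have hq3 : psi3 (E⁄K) (xOf Q) = 0 := (three_nsmul_iff hQ).mp h3
  have hb := hrel.tateB_ne
  have hv := hrel.tateV_ne
  have hq1 := xq_ne_x1 hP h5 hQ h3
  have hq2 := xq_ne_x2 hP h5 hQ h3
  set x₁ := xOf P with hx₁
  set x₂ := xOf (P + P) with hx₂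
  set xq := xOf Q with hxq
  set b := tateB (E⁄K) x₁ x₂ with hbdef
  set z := zOf x₁ x₂ xq with hzdef
  have hz0 : z ≠ 0 := zOf_ne_zero hrel.ne hq1
  have hz1 : z ≠ 1 := zOf_ne_one hrel.ne hq2
  have hR : tateR z b = 0 := by
    have := hrel.psi3_eq_tateR xq
    rw [hq3] at this
    have h' := mul_eq_zero.mp this.symm
    rcases h' with h' | h'
    · exfalso
      rcases mul_eq_zero.mp h' with h'' | h''
      · exact hv (pow_eq_zero_iff (by norm_num) |>.mp h'')
      · exact hb (pow_eq_zero_iff (by norm_num) |>.mp h'')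
    · exact h'
  -- Galois invariance
  have hfix : ∀ σ : K ≃ₐ[ℚ] K, σ (zetaOf z) = zetaOf z ∧ σ (omegaOf z b) = omegaOf z b := by
    intro σ
    have hq := sigma_xq hσQ σ
    rw [map_zetaOf, map_omegaOf, hzdef, map_zOf, hbdef, map_tateB, hq]
    rcases sigma_x12 h5 hσP σ with ⟨h1, h2⟩ | ⟨h1, h2⟩
    · rw [h1, h2]; exact ⟨rfl, rfl⟩
    · rw [h1, h2, zOf_swap hrel.ne, hrel.tateB_symm]
      exact ⟨zetaOf_swap _, omegaOf_swap hb hz0 hz1 hR⟩
  obtain ⟨ζ₀, hζ₀⟩ := (InfiniteGalois.mem_range_algebraMap_iff_fixed (k := ℚ) (K := K)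
    (zetaOf z)).mpr (fun σ => (hfix σ).1)
  obtain ⟨ω₀, hω₀⟩ := (InfiniteGalois.mem_range_algebraMap_iff_fixed (k := ℚ) (K := K)
    (omegaOf z b)).mpr (fun σ => (hfix σ).2)
  have hcurve := omegaOf_sq hz1 hR
  have hinj : Function.Injective (algebraMap ℚ K) := (algebraMap ℚ K).injective
  have hcurveQ : (36 * ω₀) ^ 2 = (9 * ζ₀) * (9 * ζ₀ - 9) * (9 * ζ₀ - 25) := by
    apply hinj
    simp only [map_pow, map_mul, map_sub, map_ofNat, hζ₀, hω₀]
    exact hcurve
  have hΔK : (E⁄K).Δ ≠ 0 := by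
    simp only [Affine.baseChange, WeierstrassCurve.baseChange, WeierstrassCurve.map_Δ]
    exact fun h => hΔ (hinj (by rw [h, map_zero]))
  have hD := hrel.tateD_ne hΔK
  have hcs := hrel.c₄_s_rel
  have hc4K : (E⁄K).c₄ = algebraMap ℚ K E.c₄ := by
    simp only [Affine.baseChange, WeierstrassCurve.baseChange, WeierstrassCurve.map_c₄]
  have hΔK' : (E⁄K).Δ = algebraMap ℚ K E.Δ := by
    simp only [Affine.baseChange, WeierstrassCurve.baseChange, WeierstrassCurve.map_Δ]
  -- the value of `s`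
  have key : ∀ s : ℚ, sOf b = algebraMap ℚ K s →
      E.c₄ ^ 3 * s = E.Δ * (s ^ 2 + 10 * s + 5) ^ 3 := by
    intro s hs
    apply hinj
    rw [hs, hc4K, hΔK'] at hcs
    simp only [map_pow, map_mul, map_add, map_ofNat]
    exact hcs
  have hζK : ∀ c : ℚ, 9 * ζ₀ = c → 9 * zetaOf z = algebraMap ℚ K c := by
    intro c hc
    rw [← hc, ← hζ₀, map_mul, map_ofNat]
  rcases hdesc _ _ hcurveQ with h | h | h | h | h
  · -- X = 0
    have h' := hζK _ h
    rw [map_zero] at h'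
    refine ⟨-25 / 2, by simp, key _ ?_⟩
    rw [sOf_of_X0 hb (case_X0 hR h')]
    simp [map_div₀]
  · -- X = 5
    have h' := hζK _ h
    rw [map_ofNat] at h'
    refine ⟨-40, by simp, key _ ?_⟩
    rw [sOf_of_X5 hb (case_X5 hR h' hD)]
    simp
  · -- X = 9
    have h' := hζK _ h
    rw [map_ofNat] at h'
    exact absurd h' (case_X9 hz0 hz1)
  · -- X = 25
    have h' := hζK _ h
    rw [map_ofNat] at h'
    refine ⟨-25 / 8, by simp, key _ ?_⟩
    rw [sOf_of_X25 hb (case_X25 hR h')]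
    simp [map_div₀]
  · -- X = 45
    have h' := hζK _ h
    rw [map_ofNat] at h'
    refine ⟨-10, by simp, key _ ?_⟩
    rw [sOf_of_X45 hb (case_X45 hR h' hD)]
    simp

end

end Fermat.Agent.S51
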