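import Mathlib.AlgebraicGeometry.EllipticCurve.Affine.Point
import Mathlib.Tactic.LinearCombination
import Mathlib.Tactic.FieldSimp
import Mathlib.Tactic.Ring

set_option autoImplicit false
set_option linter.unusedSectionVars false

/-!
# S51 helper: duplication formula in terms of `b`-invariants
-/

namespace Fermat.Agent.S51

open WeierstrassCurve WeierstrassCurve.Affine

variable {K : Type*} [Field K]

/-- `ψ₂²` as a function of `x`. -/
def psi2sq (W : Affine K) (x : K) : K := 4 * x ^ 3 + W.b₂ * x ^ 2 + 2 * W.b₄ * x + W.b₆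

/-- `ψ₃` as a function of `x`. -/
def psi3 (W : Affine K) (x : K) : K :=
  3 * x ^ 4 + W.b₂ * x ^ 3 + 3 * W.b₄ * x ^ 2 + 3 * W.b₆ * x + W.b₈

lemma psi2sq_eq_of_equation (W : Affine K) {x y : K} (h : W.Equation x y) :
    psi2sq W x = (y - W.negY x y) ^ 2 := by
  rw [equation_iff] at h
  simp only [psi2sq, negY, WeierstrassCurve.b₂, WeierstrassCurve.b₄, WeierstrassCurve.b₆]
  linear_combination (-4) * h

lemma psi3_eq_of_equation (W : Affine K) {x y : K} (h : W.Equation x y) :
    psi3 W x = -(W.a₁ * y - (3 * x ^ 2 + 2 * W.a₂ * x + W.a₄)) ^ 2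
      + W.a₁ * (W.a₁ * y - (3 * x ^ 2 + 2 * W.a₂ * x + W.a₄)) * (y - W.negY x y)
      + (W.a₂ + 3 * x) * (y - W.negY x y) ^ 2 := by
  rw [equation_iff] at h
  simp only [psi3, negY, WeierstrassCurve.b₂, WeierstrassCurve.b₄, WeierstrassCurve.b₆,
    WeierstrassCurve.b₈]
  linear_combination (-(12 * x + W.a₁ ^ 2 + 4 * W.a₂)) * h

variable [DecidableEq K]

/-- Duplication formula: if `y ≠ negY`, the `x`-coordinate `x'` of `2P` satisfies
`(x' - x) ψ₂²(x) = -ψ₃(x)`. -/
lemma addX_self_mul_psi2sq (W : Affine K) {x y : K} (h : W.Equation x y)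
    (hy : y ≠ W.negY x y) :
    (W.addX x x (W.slope x x y y) - x) * psi2sq W x = - psi3 W x := by
  have hne : y - W.negY x y ≠ 0 := sub_ne_zero.mpr hy
  rw [psi2sq_eq_of_equation W h, psi3_eq_of_equation W h, slope_of_Y_ne rfl hy, addX]
  field_simp
  ring

end Fermat.Agent.S51

namespace Fermat.Agent.S51

open WeierstrassCurve WeierstrassCurve.Affine

variable {K : Type*} [Field K] [DecidableEq K] {W : Affine K}

/-- The `x`-coordinate of a point (junk value `0` at infinity). -/
def xOf : W.Point → K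
  | .zero => 0
  | .some x _ _ => x

@[simp] lemma xOf_some {x y : K} (h : W.Nonsingular x y) : xOf (Point.some x y h) = x := rfl

lemma xOf_neg (P : W.Point) : xOf (-P) = xOf P := by
  rcases P with _ | ⟨x, y, h⟩
  · rfl
  · rfl

lemma eq_or_eq_neg_of_xOf_eq {P Q : W.Point} (hP : P ≠ 0) (hQ : Q ≠ 0) (h : xOf P = xOf Q) :
    P = Q ∨ P = -Q := by
  rcases P with _ | ⟨x₁, y₁, h₁⟩
  · exact absurd rfl hP
  rcases Q with _ | ⟨x₂, y₂, h₂⟩
  · exact absurd rfl hQ
  exact Point.X_eq_iff.mp h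

lemma psi2sq_xOf_eq_zero_iff {P : W.Point} (hP : P ≠ 0) :
    psi2sq W (xOf P) = 0 ↔ P + P = 0 := by
  rcases P with _ | ⟨x, y, h⟩
  · exact absurd rfl hP
  rw [xOf_some, psi2sq_eq_of_equation W h.1, sq_eq_zero_iff, sub_eq_zero]
  constructor
  · intro hy
    exact Point.add_self_of_Y_eq hy
  · intro h0
    by_contra hy
    rw [Point.add_self_of_Y_ne hy] at h0
    exact Point.some_ne_zero _ h0

lemma xOf_add_self {P : W.Point} (hP : P ≠ 0) (h2 : P + P ≠ 0) :
    (xOf (P + P) - xOf P) * psi2sq W (xOf P) = - psi3 W (xOf P) := by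
  rcases P with _ | ⟨x, y, h⟩
  · exact absurd rfl hP
  have hy : y ≠ W.negY x y := by
    intro hy
    exact h2 (Point.add_self_of_Y_eq hy)
  rw [Point.add_self_of_Y_ne hy]
  simp only [xOf_some]
  exact addX_self_mul_psi2sq W h.1 hy

lemma psi3_xOf_eq_zero_of_three_nsmul {P : W.Point} (hP : P ≠ 0) (h3 : P + P + P = 0) :
    psi3 W (xOf P) = 0 := by
  have h2 : P + P ≠ 0 := by
    intro h
    rw [h, zero_add] at h3
    exact hP h3
  have hx : xOf (P + P) = xOf P := by
    have : P + P = -P := eq_neg_of_add_eq_zero_left h3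
    rw [this, xOf_neg]
  have := xOf_add_self hP h2
  rw [hx, sub_self, zero_mul] at this
  exact neg_eq_zero.mp this.symm

lemma three_nsmul_of_psi3_xOf_eq_zero {P : W.Point} (hP : P ≠ 0) (h3 : psi3 W (xOf P) = 0) :
    P + P + P = 0 := by
  have h2 : P + P ≠ 0 := by
    rcases P with _ | ⟨x, y, h⟩
    · exact absurd rfl hP
    intro h0
    have hy : y = W.negY x y := by
      by_contra hy
      rw [Point.add_self_of_Y_ne hy] at h0
      exact Point.some_ne_zero _ h0
    have hns := (nonsingular_iff x y).mp h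
    rw [xOf_some, psi3_eq_of_equation W h.1] at h3
    have hy0 : y - W.negY x y = 0 := sub_eq_zero.mpr hy
    rw [hy0] at h3
    have hX : W.a₁ * y - (3 * x ^ 2 + 2 * W.a₂ * x + W.a₄) = 0 := by
      have : (W.a₁ * y - (3 * x ^ 2 + 2 * W.a₂ * x + W.a₄)) ^ 2 = 0 := by
        linear_combination -h3
      exact sq_eq_zero_iff.mp this
    rcases hns.2 with h' | h'
    · exact h' (sub_eq_zero.mp hX)
    · apply h'
      rw [negY] at hy
      exact hy
  have hx : xOf (P + P) = xOf P := by
    have := xOf_add_self hP h2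
    rw [h3, neg_zero] at this
    have hne : psi2sq W (xOf P) ≠ 0 := fun h => h2 ((psi2sq_xOf_eq_zero_iff hP).mp h)
    exact sub_eq_zero.mp ((mul_eq_zero.mp this).resolve_right hne)
  rcases eq_or_eq_neg_of_xOf_eq h2 hP hx with h | h
  · exact absurd (by simpa using h) hP
  · rw [h]; exact neg_add_cancel P

end Fermat.Agent.S51
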