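import Fermat.Agent.S51.Invariants
import Fermat.Prelude.Def_FLTPrelim_GaloisRep

set_option autoImplicit false
set_option linter.unusedSectionVars false

/-!
# S51 helper: Galois action on `x`-coordinates
-/

namespace Fermat.Agent.S51

open WeierstrassCurve WeierstrassCurve.Affine

variable {F : Type*} {K : Type*} [Field F] [Field K] [Algebra F K] [DecidableEq K]
  {E : Affine F}

lemma xOf_smul (σ : K ≃ₐ[F] K) (P : (E⁄K).Point) : xOf (σ • P) = σ (xOf P) := by
  rcases P with _ | ⟨x, y, h⟩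
  · change xOf (Point.map σ.toAlgHom (0 : (E⁄K).Point)) = σ 0
    rw [map_zero, map_zero]; rfl
  · change xOf (Point.map σ.toAlgHom (Point.some x y h)) = σ x
    rw [Point.map_some]; rfl

lemma smul_eq_zero_iff' (σ : K ≃ₐ[F] K) (P : (E⁄K).Point) : σ • P = 0 ↔ P = 0 := by
  constructor
  · intro h
    have := congrArg (fun Q => σ⁻¹ • Q) h
    simpa using this
  · rintro rfl; exact smul_zero σ

lemma map_psi2sq (σ : K ≃ₐ[F] K) (x : K) : σ (psi2sq (E⁄K) x) = psi2sq (E⁄K) (σ x) := by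
  simp only [psi2sq, Affine.baseChange, WeierstrassCurve.baseChange, WeierstrassCurve.map_b₂,
    WeierstrassCurve.map_b₄, WeierstrassCurve.map_b₆, map_add, map_mul, map_pow,
    AlgEquiv.commutes, map_ofNat]

lemma map_tateB (σ : K ≃ₐ[F] K) (x₁ x₂ : K) :
    σ (tateB (E⁄K) x₁ x₂) = tateB (E⁄K) (σ x₁) (σ x₂) := by
  simp only [tateB, map_div₀, map_pow, map_sub, map_psi2sq]

lemma map_zOf (σ : K ≃ₐ[F] K) (x₁ x₂ xq : K) : σ (zOf x₁ x₂ xq) = zOf (σ x₁) (σ x₂) (σ xq) := by
  simp only [zOf, map_div₀, map_sub]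

lemma map_zetaOf (σ : K ≃ₐ[F] K) (z : K) : σ (zetaOf z) = zetaOf (σ z) := by
  simp only [zetaOf, map_pow, map_sub, map_mul, map_ofNat, map_one]

lemma map_omegaOf (σ : K ≃ₐ[F] K) (z b : K) : σ (omegaOf z b) = omegaOf (σ z) (σ b) := by
  simp only [omegaOf, map_div₀, map_pow, map_sub, map_mul, map_add, map_ofNat, map_one]

end Fermat.Agent.S51
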