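import Fermat.Agent.S51.Tate
import Mathlib.Tactic.Linarith
import Mathlib.Algebra.CharZero.Defs
import Mathlib.Tactic.NormNum
import Mathlib.Tactic.Ring

set_option autoImplicit false
set_option linter.unusedSectionVars false

/-!
# S51 helper: the invariants `ζ`, `ω` of a configuration (5-torsion line, 3-torsion line)
and the resulting point on `Y² = X (X - 9) (X - 25)` (pure field algebra)
-/

namespace Fermat.Agent.S51

variable {K : Type*} [Field K]

/-- `z = (x_Q - x₁) / (x₂ - x₁)`. -/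
noncomputable def zOf (x₁ x₂ xq : K) : K := (xq - x₁) / (x₂ - x₁)

/-- `ζ = (2z-1)²`. -/
def zetaOf (z : K) : K := (2 * z - 1) ^ 2

/-- `ω = (2z-1) (2 z² b + 3 z (z-1)²) / (z-1)`. -/
noncomputable def omegaOf (z b : K) : K :=
  (2 * z - 1) * ((2 * z ^ 2 * b + 3 * z * (z - 1) ^ 2) / (z - 1))

lemma zOf_swap {x₁ x₂ xq : K} (h : x₁ ≠ x₂) : zOf x₂ x₁ xq = 1 - zOf x₁ x₂ xq := by
  have h1 : x₂ - x₁ ≠ 0 := sub_ne_zero.mpr h.symm
  have h2 : x₁ - x₂ ≠ 0 := sub_ne_zero.mpr h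
  simp only [zOf]; field_simp; ring

lemma zOf_ne_zero {x₁ x₂ xq : K} (h : x₁ ≠ x₂) (hq : xq ≠ x₁) : zOf x₁ x₂ xq ≠ 0 :=
  div_ne_zero (sub_ne_zero.mpr hq) (sub_ne_zero.mpr h.symm)

lemma zOf_ne_one {x₁ x₂ xq : K} (h : x₁ ≠ x₂) (hq : xq ≠ x₂) : zOf x₁ x₂ xq ≠ 1 := by
  have h1 : x₂ - x₁ ≠ 0 := sub_ne_zero.mpr h.symm
  intro h'
  rw [zOf, div_eq_one_iff_eq h1] at h'
  exact hq (by linear_combination h')

lemma zetaOf_swap (z : K) : zetaOf (1 - z) = zetaOf z := by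
  simp only [zetaOf]; ring

lemma omegaOf_swap {z b : K} (hb : b ≠ 0) (hz0 : z ≠ 0) (hz1 : z ≠ 1) (hR : tateR z b = 0) :
    omegaOf (1 - z) (-b⁻¹) = omegaOf z b := by
  have h1 : z - 1 ≠ 0 := sub_ne_zero.mpr hz1
  have h2 : 1 - z - 1 ≠ 0 := by
    intro h; apply hz0; linear_combination -h
  simp only [tateR] at hR
  simp only [omegaOf]
  field_simp
  grind

lemma omegaOf_sq {z b : K} (hz1 : z ≠ 1) (hR : tateR z b = 0) :
    (36 * omegaOf z b) ^ 2 = (9 * zetaOf z) * (9 * zetaOf z - 9) * (9 * zetaOf z - 25) := by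
  have h1 : z - 1 ≠ 0 := sub_ne_zero.mpr hz1
  simp only [tateR] at hR
  simp only [omegaOf, zetaOf]
  field_simp
  grind

end Fermat.Agent.S51

namespace Fermat.Agent.S51

variable {K : Type*} [Field K] [CharZero K]

lemma case_X9 {z : K} (hz0 : z ≠ 0) (hz1 : z ≠ 1) : 9 * zetaOf z ≠ 9 := by
  intro h
  simp only [zetaOf] at h
  have : z * (z - 1) = 0 := by linear_combination h / 36
  rcases mul_eq_zero.mp this with h' | h'
  · exact hz0 h'
  · exact hz1 (sub_eq_zero.mp h')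

lemma case_X0 {z b : K} (hR : tateR z b = 0) (h : 9 * zetaOf z = 0) :
    2 * b ^ 2 + 3 * b - 2 = 0 := by
  simp only [zetaOf] at h
  simp only [tateR] at hR
  have hz : 2 * z - 1 = 0 := by
    have : (2 * z - 1) ^ 2 = 0 := by linear_combination h / 9
    exact sq_eq_zero_iff.mp this
  have hz' : z = 1 / 2 := by linear_combination hz / 2
  subst hz'
  linear_combination 16 * hR

lemma case_X25 {z b : K} (hR : tateR z b = 0) (h : 9 * zetaOf z = 25) :
    8 * b ^ 2 - 63 * b - 8 = 0 := by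
  simp only [zetaOf] at h
  simp only [tateR] at hR
  have : (3 * z - 4) * (3 * z + 1) = 0 := by linear_combination h / 4
  rcases mul_eq_zero.mp this with h' | h'
  · have hz' : z = 4 / 3 := by linear_combination h' / 3
    subst hz'
    have : (8 * b + 1) ^ 2 = 0 := by linear_combination 27 * hR
    have h8 := sq_eq_zero_iff.mp this
    linear_combination (b - 8) * h8
  · have hz' : z = -1 / 3 := by linear_combination h' / 3
    subst hz'
    have : (b - 8) ^ 2 = 0 := by linear_combination (-27) * hR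
    have h8 := sq_eq_zero_iff.mp this
    linear_combination (8 * b + 1) * h8

lemma case_X45 {z b : K} (hR : tateR z b = 0) (h : 9 * zetaOf z = 45)
    (hD : b ^ 2 - 11 * b - 1 ≠ 0) : b ^ 2 - b - 1 = 0 := by
  simp only [zetaOf] at h
  simp only [tateR] at hR
  have : (b ^ 2 - 11 * b - 1) * (b ^ 2 - b - 1) = 0 := by grind
  exact (mul_eq_zero.mp this).resolve_left hD

lemma case_X5 {z b : K} (hR : tateR z b = 0) (h : 9 * zetaOf z = 5)
    (hD : b ^ 2 - 11 * b - 1 ≠ 0) : b ^ 2 + 29 * b - 1 = 0 := by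
  simp only [zetaOf] at h
  simp only [tateR] at hR
  have : (b ^ 2 - 11 * b - 1) * (b ^ 2 + 29 * b - 1) = 0 := by grind
  exact (mul_eq_zero.mp this).resolve_left hD

/-- `s = b - 1/b - 11`. -/
noncomputable def sOf (b : K) : K := b - b⁻¹ - 11

lemma sOf_of_X0 {b : K} (hb : b ≠ 0) (h : 2 * b ^ 2 + 3 * b - 2 = 0) : sOf b = -25 / 2 := by
  simp only [sOf]; field_simp; linear_combination h

lemma sOf_of_X25 {b : K} (hb : b ≠ 0) (h : 8 * b ^ 2 - 63 * b - 8 = 0) : sOf b = -25 / 8 := by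
  simp only [sOf]; field_simp; linear_combination h

lemma sOf_of_X45 {b : K} (hb : b ≠ 0) (h : b ^ 2 - b - 1 = 0) : sOf b = -10 := by
  simp only [sOf]; field_simp; linear_combination h

lemma sOf_of_X5 {b : K} (hb : b ≠ 0) (h : b ^ 2 + 29 * b - 1 = 0) : sOf b = -40 := by
  simp only [sOf]; field_simp; linear_combination h

open WeierstrassCurve WeierstrassCurve.Affine in
lemma FiveRel.c₄_s_rel {W : Affine K} {x₁ x₂ : K} (h : FiveRel W x₁ x₂) :
    W.c₄ ^ 3 * sOf (tateB W x₁ x₂) =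
      W.Δ * (sOf (tateB W x₁ x₂) ^ 2 + 10 * sOf (tateB W x₁ x₂) + 5) ^ 3 := by
  have hb := h.tateB_ne
  rw [h.c₄_eq, h.Δ_eq]
  simp only [sOf]
  field_simp
  ring

open WeierstrassCurve WeierstrassCurve.Affine in
lemma FiveRel.tateD_ne {W : Affine K} {x₁ x₂ : K} (h : FiveRel W x₁ x₂) (hΔ : W.Δ ≠ 0) :
    tateB W x₁ x₂ ^ 2 - 11 * tateB W x₁ x₂ - 1 ≠ 0 := by
  intro h0
  apply hΔ
  rw [h.Δ_eq, h0]; ring

end Fermat.Agent.S51
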