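import Fermat.Agent.S51.Config
import Fermat.Prelude.Def_FLTPrelim_ModularRep
import Mathlib.LinearAlgebra.Dimension.Finite
import Mathlib.LinearAlgebra.FiniteDimensional.Lemmas
import Mathlib.FieldTheory.Finiteness
import Mathlib.Algebra.Field.ZMod

set_option autoImplicit false
set_option linter.unusedSectionVars false

/-!
# S51 helper: a proper nonzero Galois-stable submodule of `E[p]` is a line
-/

namespace Fermat.Agent.S51

open WeierstrassCurve WeierstrassCurve.Affine WeierstrassCurve.Affine.Point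

variable {K : Type*} [Field K] [Algebra ℚ K] [DecidableEq K] {E : Affine ℚ}

/-- abbreviation for the `n`-torsion module. -/
abbrev Tors (E : Affine ℚ) (K : Type*) [Field K] [Algebra ℚ K] [DecidableEq K] (n : ℕ) :=
  Submodule.torsionBy ℤ (E⁄K).Point n

lemma mem_tors_iff {n : ℕ} (P : (E⁄K).Point) : P ∈ Tors E K n ↔ n • P = 0 := by
  rw [Submodule.mem_torsionBy_iff, Nat.cast_smul_eq_nsmul]

lemma coe_smul_tors {n : ℕ} (σ : K ≃ₐ[ℚ] K) (x : Tors E K n) :
    ((σ • x : Tors E K n) : (E⁄K).Point) = σ • (x : (E⁄K).Point) := rfl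

lemma coe_zmod_smul_tors {n : ℕ} (c : ℕ) (x : Tors E K n) :
    (((c : ZMod n) • x : Tors E K n) : (E⁄K).Point) = c • (x : (E⁄K).Point) := by
  rw [Nat.cast_smul_eq_nsmul (ZMod n)]
  simp

/-- A proper nonzero submodule of a `ZMod p`-module with fewer than `p³` elements is a line. -/
lemma exists_generator_of_card_lt {p : ℕ} [Fact p.Prime] {V : Type*} [AddCommGroup V]
    [Module (ZMod p) V] [Finite V] (hcard : Nat.card V < p ^ 3)
    (N : Submodule (ZMod p) V) (h0 : N ≠ ⊥) (h1 : N ≠ ⊤) :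
    ∃ v : V, v ∈ N ∧ v ≠ 0 ∧ ∀ w ∈ N, ∃ c : ZMod p, w = c • v := by
  have hp : p.Prime := Fact.out
  haveI : Module.Finite (ZMod p) V := Module.Finite.of_finite
  have hV : Module.finrank (ZMod p) V < 3 := by
    have h := Module.natCard_eq_pow_finrank (K := ZMod p) (V := V)
    rw [Nat.card_zmod] at h
    rw [h] at hcard
    exact (Nat.pow_lt_pow_iff_right hp.one_lt).mp hcard
  have hN : Module.finrank (ZMod p) N < Module.finrank (ZMod p) V :=
    Submodule.finrank_lt h1
  have hN0 : 0 < Module.finrank (ZMod p) N := by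
    rw [Module.finrank_pos_iff]
    exact (Submodule.nontrivial_iff_ne_bot).mpr h0
  have hN1 : Module.finrank (ZMod p) N = 1 := by omega
  obtain ⟨v, hv0, hv⟩ := finrank_eq_one_iff'.mp hN1
  refine ⟨v, v.2, fun h => hv0 (Subtype.ext h), fun w hw => ?_⟩
  obtain ⟨c, hc⟩ := hv ⟨w, hw⟩
  exact ⟨c, by rw [← Submodule.coe_smul, hc]⟩

end Fermat.Agent.S51
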