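import Fermat.Agent.S51.Torsion

set_option autoImplicit false
set_option linter.unusedSectionVars false

/-!
# S51 helper: Tate normal form algebra for a point of order 5 (pure field algebra)
-/

namespace Fermat.Agent.S51

open WeierstrassCurve WeierstrassCurve.Affine

variable {K : Type*} [Field K] {W : Affine K}

/-- translated `b₂`. -/
def tb2 (W : Affine K) (x : K) : K := W.b₂ + 12 * x
/-- translated `b₄`. -/
def tb4 (W : Affine K) (x : K) : K := W.b₄ + W.b₂ * x + 6 * x ^ 2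

lemma psi2sq_add (W : Affine K) (x d : K) :
    psi2sq W (x + d) = 4 * d ^ 3 + tb2 W x * d ^ 2 + 2 * tb4 W x * d + psi2sq W x := by
  simp only [psi2sq, tb2, tb4]; ring

lemma psi3_add (W : Affine K) (x d : K) :
    psi3 W (x + d) = 3 * d ^ 4 + tb2 W x * d ^ 3 + 3 * tb4 W x * d ^ 2 + 3 * psi2sq W x * d
      + psi3 W x := by
  simp only [psi3, psi2sq, tb2, tb4]; ring

lemma tb_relation (W : Affine K) (x : K) :
    4 * psi3 W x = tb2 W x * psi2sq W x - tb4 W x ^ 2 := by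
  have := W.b_relation
  simp only [psi3, psi2sq, tb2, tb4]
  linear_combination this

lemma c₄_eq_tb (W : Affine K) (x : K) : W.c₄ = tb2 W x ^ 2 - 24 * tb4 W x := by
  simp only [WeierstrassCurve.c₄, tb2, tb4]; ring

lemma Δ_eq_tb (W : Affine K) (x : K) :
    W.Δ = -tb2 W x ^ 2 * psi3 W x - 8 * tb4 W x ^ 3 - 27 * psi2sq W x ^ 2
      + 9 * tb2 W x * tb4 W x * psi2sq W x := by
  have := W.b_relation
  simp only [WeierstrassCurve.Δ, psi3, psi2sq, tb2, tb4]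
  linear_combination (6 * x * W.b₂ + 36 * x ^ 2) * this

/-- Tate parameter `b` of a pair `(x₁, x₂) = (x(P), x(2P))`. -/
noncomputable def tateB (W : Affine K) (x₁ x₂ : K) : K := (x₂ - x₁) ^ 3 / psi2sq W x₁
/-- Tate scaling `v = u²`. -/
noncomputable def tateV (W : Affine K) (x₁ x₂ : K) : K := psi2sq W x₁ / (x₂ - x₁) ^ 2

section
variable {x₁ x₂ : K} (h : FiveRel W x₁ x₂)
include h

lemma FiveRel.d_ne : x₂ - x₁ ≠ 0 := sub_ne_zero.mpr h.ne.symm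

lemma FiveRel.tateB_ne : tateB W x₁ x₂ ≠ 0 :=
  div_ne_zero (pow_ne_zero _ h.d_ne) h.p1

lemma FiveRel.tateV_ne : tateV W x₁ x₂ ≠ 0 :=
  div_ne_zero h.p1 (pow_ne_zero _ h.d_ne)

lemma FiveRel.v_mul_b : tateV W x₁ x₂ * tateB W x₁ x₂ = x₂ - x₁ := by
  have := h.d_ne; have := h.p1
  simp only [tateV, tateB]; field_simp

lemma FiveRel.psi2sq_eq : psi2sq W x₁ = tateV W x₁ x₂ ^ 3 * tateB W x₁ x₂ ^ 2 := by
  have := h.d_ne; have := h.p1
  simp only [tateV, tateB]; field_simp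

lemma FiveRel.psi3_eq : psi3 W x₁ = -(tateV W x₁ x₂ ^ 4 * tateB W x₁ x₂ ^ 3) := by
  have := h.d_ne; have := h.p1
  have h1 := h.h1
  simp only [tateV, tateB]; field_simp
  linear_combination h1

lemma FiveRel.key : (x₂ - x₁) ^ 3 - tb4 W x₁ * (x₂ - x₁) - psi2sq W x₁ = 0 := by
  have hd := h.d_ne
  have h1 := h.h1
  have h2 := h.h2
  have e2 : x₂ = x₁ + (x₂ - x₁) := by ring
  rw [e2, psi2sq_add, psi3_add] at h2
  have key : (x₂ - x₁) * ((x₂ - x₁) ^ 3 - tb4 W x₁ * (x₂ - x₁) - psi2sq W x₁) = 0 := by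
    linear_combination (-1 : K) * h2 + h1
  exact (mul_eq_zero.mp key).resolve_left hd

lemma FiveRel.tb4_eq :
    tb4 W x₁ = tateV W x₁ x₂ ^ 2 * (tateB W x₁ x₂ ^ 2 - tateB W x₁ x₂) := by
  have hd := h.d_ne; have hA := h.p1
  have key := h.key
  simp only [tateV, tateB]
  field_simp
  linear_combination (-1 : K) * key

lemma FiveRel.tb2_eq :
    tb2 W x₁ = tateV W x₁ x₂ * (tateB W x₁ x₂ ^ 2 - 6 * tateB W x₁ x₂ + 1) := by
  have hd := h.d_ne; have hA := h.p1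
  have key := h.key
  have h1 := h.h1
  have rel := tb_relation W x₁
  have e4 : tb4 W x₁ * (x₂ - x₁) = (x₂ - x₁) ^ 3 - psi2sq W x₁ := by linear_combination -key
  simp only [tateV, tateB]
  field_simp
  have e4' : (tb4 W x₁ * (x₂ - x₁)) ^ 2 = ((x₂ - x₁) ^ 3 - psi2sq W x₁) ^ 2 := by rw [e4]
  linear_combination (-(x₂ - x₁) ^ 2) * rel + 4 * (x₂ - x₁) ^ 2 * h1 + e4'

lemma FiveRel.c₄_eq :
    W.c₄ = tateV W x₁ x₂ ^ 2 * (tateB W x₁ x₂ ^ 4 - 12 * tateB W x₁ x₂ ^ 3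
      + 14 * tateB W x₁ x₂ ^ 2 + 12 * tateB W x₁ x₂ + 1) := by
  rw [c₄_eq_tb W x₁, h.tb2_eq, h.tb4_eq]; ring

lemma FiveRel.Δ_eq :
    W.Δ = tateV W x₁ x₂ ^ 6 * (tateB W x₁ x₂ ^ 5
      * (tateB W x₁ x₂ ^ 2 - 11 * tateB W x₁ x₂ - 1)) := by
  rw [Δ_eq_tb W x₁, h.tb2_eq, h.tb4_eq, h.psi3_eq, h.psi2sq_eq]; ring

lemma FiveRel.psi2sq_eq' : psi2sq W x₂ = tateV W x₁ x₂ ^ 3 * tateB W x₁ x₂ ^ 4 := by
  have e2 : x₂ = x₁ + tateV W x₁ x₂ * tateB W x₁ x₂ := by rw [h.v_mul_b]; ring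
  rw [e2, psi2sq_add, h.tb2_eq, h.tb4_eq, h.psi2sq_eq]
  rw [← e2]; ring

/-- The polynomial `R(z,b)` cutting out the 3-torsion in Tate coordinates. -/
def tateR (z b : K) : K := z ^ 3 * b ^ 2 + 3 * z ^ 2 * (z - 1) ^ 2 * b + (z - 1) ^ 3

lemma FiveRel.psi3_eq_tateR (x : K) :
    psi3 W x = tateV W x₁ x₂ ^ 4 * tateB W x₁ x₂ ^ 3
      * tateR ((x - x₁) / (x₂ - x₁)) (tateB W x₁ x₂) := by
  have hd := h.d_ne
  have e : x = x₁ + tateV W x₁ x₂ * tateB W x₁ x₂ * ((x - x₁) / (x₂ - x₁)) := by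
    rw [h.v_mul_b]; field_simp; ring
  generalize (x - x₁) / (x₂ - x₁) = z at e
  rw [e, psi3_add, h.tb2_eq, h.tb4_eq, h.psi2sq_eq, h.psi3_eq, tateR]
  ring

lemma FiveRel.tateB_symm : tateB W x₂ x₁ = - (tateB W x₁ x₂)⁻¹ := by
  have hb := h.tateB_ne
  have hv := h.tateV_ne
  have e : x₁ - x₂ = -(tateV W x₁ x₂ * tateB W x₁ x₂) := by rw [h.v_mul_b]; ring
  have : tateB W x₂ x₁ = (x₁ - x₂) ^ 3 / psi2sq W x₂ := rfl
  rw [this, h.psi2sq_eq', e]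
  field_simp

end

end Fermat.Agent.S51
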